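/-
S25lib / Ideal / InvCrit  (helper1)  --  Project L (S25), block `Ideal` (Cartier algebra)

**A criterion for `Module.Invertible`** (pure commutative algebra, Mathlib only).
* `invertible_of_contractLeft_surjective` : if `ψ x • y = ψ y • x` for all functionals `ψ` and all
  `x y : M` ("rank at most one") and the evaluation `M^∨ ⊗ M → S` is surjective, then `M` is
  invertible.
* `exists_dual_apply_notMem` : `M` finitely presented, `P` a prime, `m₀ ∈ M` a free generator of
  `M` at `P` (elementwise form).  Then some functional `φ` has `φ m₀ ∉ P`.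
* `invertible_of_forall_maximal` : `M` finitely presented, of rank at most one, with a free generator
  at every maximal ideal, is invertible.
* `ideal_invertible_of_forall_maximal` : the case of a (finitely presented) ideal `I` of `S`: `I` is
  invertible as soon as at every maximal ideal `P` it is generated by a non-zero-divisor
  (elementwise form: `∃ f ∈ I, (∀ x ∈ I, ∃ u ∉ P, ∃ c, u * x = c * f) ∧
  (∀ c, c * f = 0 → ∃ u ∉ P, u * c = 0)`).
-/
import Mathlib

set_option autoImplicit false
set_option linter.unusedSectionVars false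

noncomputable section

namespace Fermat.Agent.S25lib.Ideal

open TensorProduct

variable {S : Type*} [CommRing S] {M : Type*} [AddCommGroup M] [Module S M]

/-- in a module of rank at most one, `c(t) • t' = c(t') • t` for the evaluation `c : M^∨ ⊗ M → S` -/
theorem contractLeft_smul_comm (h2 : ∀ (ψ : Module.Dual S M) (x y : M), ψ x • y = ψ y • x)
    (t t' : Module.Dual S M ⊗[S] M) :
    contractLeft S M t • t' = contractLeft S M t' • t := by
  -- functionals commute as well
  have h3 : ∀ (ψ φ : Module.Dual S M) (y : M), ψ y • φ = φ y • ψ := by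
    intro ψ φ y
    ext z
    have := congrArg ψ (h2 φ z y)
    simp only [map_smul, smul_eq_mul] at this
    simp only [LinearMap.smul_apply, smul_eq_mul]
    rw [mul_comm, this, mul_comm]
  induction t using TensorProduct.induction_on with
  | zero => simp
  | tmul ψ x =>
    induction t' using TensorProduct.induction_on with
    | zero => simp
    | tmul φ y =>
      rw [contractLeft_apply, contractLeft_apply, TensorProduct.smul_tmul', TensorProduct.smul_tmul',
        TensorProduct.smul_tmul, h2 ψ x y, ← TensorProduct.smul_tmul, h3 ψ φ y]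
    | add a b ha hb => rw [smul_add, ha, hb, map_add, add_smul]
  | add a b ha hb => rw [map_add, add_smul, ha, hb, smul_add]

/-- **rank at most one + surjective evaluation ⇒ invertible** -/
theorem invertible_of_contractLeft_surjective
    (h2 : ∀ (ψ : Module.Dual S M) (x y : M), ψ x • y = ψ y • x)
    (h1 : Function.Surjective (contractLeft S M)) : Module.Invertible S M := by
  refine ⟨⟨?_, h1⟩⟩
  obtain ⟨t₀, ht₀⟩ := h1 1
  rw [injective_iff_map_eq_zero]
  intro t ht
  have := contractLeft_smul_comm h2 t₀ t
  rw [ht₀, ht, one_smul, zero_smul] at this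
  exact this

/-- a functional which does not vanish at `P` on a free generator `m₀` of `M` at `P` -/
theorem exists_dual_apply_notMem [Module.FinitePresentation S M] (P : Ideal S) [P.IsPrime]
    (m₀ : M) (hgen : ∀ x : M, ∃ u ∉ P, ∃ c : S, u • x = c • m₀)
    (hfree : ∀ c : S, c • m₀ = 0 → ∃ u ∉ P, u * c = 0) :
    ∃ φ : Module.Dual S M, φ m₀ ∉ P := by
  classical
  obtain ⟨n, m, f, g, hf, hfg⟩ := Module.FinitePresentation.exists_fin' S M
  -- the generators
  choose u hu c hc using fun j : Fin n => hgen (f (Pi.single j 1))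
  have huP : ∀ s : Finset (Fin n), ∏ j ∈ s, u j ∉ P := by
    intro s
    induction s using Finset.induction_on with
    | empty => simpa using P.ne_top_iff_one.mp (Ideal.IsPrime.ne_top ‹_›)
    | insert a s ha ih =>
      rw [Finset.prod_insert ha]
      exact fun h => (Ideal.IsPrime.mem_or_mem ‹_› h).elim (hu a) ih
  set U : S := ∏ j, u j with hU
  let d : Fin n → S := fun j => (∏ j' ∈ Finset.univ.erase j, u j') * c j
  have hd : ∀ j, U • f (Pi.single j 1) = d j • m₀ := by
    intro j
    have : U = (∏ j' ∈ Finset.univ.erase j, u j') * u j := by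
      rw [hU, Finset.prod_erase_mul _ _ (Finset.mem_univ j)]
    rw [this, mul_smul, hc j, smul_smul]
  -- the functional on the free module
  let φ₀ : (Fin n → S) →ₗ[S] S := ∑ j, d j • LinearMap.proj j
  have hφ₀ : ∀ a : Fin n → S, φ₀ a • m₀ = U • f a := by
    intro a
    have ha : a = ∑ j, a j • (Pi.single j 1 : Fin n → S) := by
      ext i
      simp [Finset.sum_apply, Pi.single_apply]
    have h1 : φ₀ a = ∑ j, d j * a j := by
      simp [φ₀, LinearMap.sum_apply]
    rw [h1, Finset.sum_smul]
    conv_rhs => rw [ha, map_sum, Finset.smul_sum]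
    refine Finset.sum_congr rfl fun j _ => ?_
    rw [map_smul, smul_comm, hd j, smul_smul, mul_comm]
  -- kill the relations
  have hrel : ∀ l : Fin m, ∃ v ∉ P, v * φ₀ (g (Pi.single l 1)) = 0 := by
    intro l
    apply hfree
    rw [hφ₀, hfg.apply_apply_eq_zero, smul_zero]
  choose v hv hv0 using hrel
  have hvP : ∀ s : Finset (Fin m), ∏ l ∈ s, v l ∉ P := by
    intro s
    induction s using Finset.induction_on with
    | empty => simpa using P.ne_top_iff_one.mp (Ideal.IsPrime.ne_top ‹_›)
    | insert a s ha ih =>
      rw [Finset.prod_insert ha]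
      exact fun h => (Ideal.IsPrime.mem_or_mem ‹_› h).elim (hv a) ih
  set V : S := ∏ l, v l with hV
  have hker : LinearMap.ker f ≤ LinearMap.ker (V • φ₀) := by
    intro a ha
    rw [LinearMap.mem_ker] at ha ⊢
    obtain ⟨b, rfl⟩ := (hfg a).mp ha
    have hb : b = ∑ l, b l • (Pi.single l 1 : Fin m → S) := by
      ext i
      simp [Finset.sum_apply, Pi.single_apply]
    rw [hb, map_sum, map_sum]
    refine Finset.sum_eq_zero fun l _ => ?_
    rw [map_smul, map_smul, LinearMap.smul_apply, smul_eq_mul, smul_eq_mul]
    have : V = (∏ l' ∈ Finset.univ.erase l, v l') * v l := by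
      rw [hV, Finset.prod_erase_mul _ _ (Finset.mem_univ l)]
    rw [this, mul_assoc, hv0 l, mul_zero, mul_zero]
  -- descend to `M`
  let φ : Module.Dual S M :=
    ((LinearMap.ker f).liftQ (V • φ₀) hker) ∘ₗ (f.quotKerEquivOfSurjective hf).symm.toLinearMap
  have hφ : ∀ a, φ (f a) = V * φ₀ a := by
    intro a
    have : (f.quotKerEquivOfSurjective hf).symm (f a) = Submodule.Quotient.mk a := by
      rw [LinearEquiv.symm_apply_eq]
      rfl
    show ((LinearMap.ker f).liftQ (V • φ₀) hker) ((f.quotKerEquivOfSurjective hf).symm (f a)) = _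
    rw [this, Submodule.liftQ_apply]
    rfl
  refine ⟨φ, ?_⟩
  obtain ⟨a, rfl⟩ := hf m₀
  have h1 : (φ (f a) - V * U) • f a = 0 := by
    rw [sub_smul, hφ, mul_smul, hφ₀, mul_smul, sub_self]
  obtain ⟨w, hw, hw0⟩ := hfree _ h1
  intro hmem
  have h2 : w * (V * U) ∈ P := by
    have : w * (V * U) = w * φ (f a) := by
      rw [mul_sub, sub_eq_zero] at hw0
      exact hw0.symm
    rw [this]
    exact P.mul_mem_left _ hmem
  rcases Ideal.IsPrime.mem_or_mem ‹_› h2 with h | h
  · exact hw h
  · rcases Ideal.IsPrime.mem_or_mem ‹_› h with h | h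
    · exact hvP _ h
    · exact huP _ h

/-- **a finitely presented module of rank at most one with a free generator at every maximal ideal
is invertible** -/
theorem invertible_of_forall_maximal [Module.FinitePresentation S M]
    (h2 : ∀ (ψ : Module.Dual S M) (x y : M), ψ x • y = ψ y • x)
    (h : ∀ P : Ideal S, P.IsMaximal → ∃ m₀ : M,
      (∀ x : M, ∃ u ∉ P, ∃ c : S, u • x = c • m₀) ∧ (∀ c : S, c • m₀ = 0 → ∃ u ∉ P, u * c = 0)) :
    Module.Invertible S M := by
  refine invertible_of_contractLeft_surjective h2 ?_
  rw [← LinearMap.range_eq_top]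
  by_contra hne
  obtain ⟨P, hP, hle⟩ := Ideal.exists_le_maximal (LinearMap.range (contractLeft S M)) hne
  have := hP.isPrime
  obtain ⟨m₀, hgen, hfree⟩ := h P hP
  obtain ⟨φ, hφ⟩ := exists_dual_apply_notMem P m₀ hgen hfree
  exact hφ (hle ⟨φ ⊗ₜ m₀, contractLeft_apply φ m₀⟩)

/-- an ideal has rank at most one -/
theorem ideal_dual_apply_smul_comm (I : Ideal S) (ψ : Module.Dual S I) (x y : I) :
    ψ x • y = ψ y • x := by
  apply Subtype.ext
  show ψ x * (y : S) = ψ y * (x : S)
  have h1 : ψ ((y : S) • x) = ψ ((x : S) • y) := by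
    congr 1
    apply Subtype.ext
    show (y : S) * x = x * y
    ring
  rw [map_smul, map_smul, smul_eq_mul, smul_eq_mul] at h1
  rw [mul_comm, h1, mul_comm]

/-- **a finitely presented ideal which at every maximal ideal is generated by a non-zero-divisor is
an invertible module** -/
theorem ideal_invertible_of_forall_maximal (I : Ideal S) [Module.FinitePresentation S I]
    (h : ∀ P : Ideal S, P.IsMaximal → ∃ f ∈ I,
      (∀ x ∈ I, ∃ u ∉ P, ∃ c : S, u * x = c * f) ∧ (∀ c : S, c * f = 0 → ∃ u ∉ P, u * c = 0)) :
    Module.Invertible S I := by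
  refine invertible_of_forall_maximal (ideal_dual_apply_smul_comm I) fun P hP => ?_
  obtain ⟨f, hf, hgen, hfree⟩ := h P hP
  refine ⟨⟨f, hf⟩, fun x => ?_, fun c hc => ?_⟩
  · obtain ⟨u, hu, c, huc⟩ := hgen x.1 x.2
    exact ⟨u, hu, c, Subtype.ext huc⟩
  · exact hfree c (congrArg Subtype.val hc)

end Fermat.Agent.S25lib.Ideal
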