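/-
S25lib / Ideal / Chart  (helper1)  --  Project L (S25), block (I3)-algebra, (ID1)

**The chart of the functor of ideals is an affine scheme (basis-free).**
`k` a commutative ring, `A` a commutative `k`-algebra, `β : Fin g → A`.  For a `k`-algebra `R` a
*retraction datum* is a `k`-linear map `r : A → R^g` with `r (β i) = e_i` and
`r (x * y) = ∑ i, (r y) i • r (x * β i)`; these are exactly the `R`-linear retractions
`R ⊗ A → R^g` of `e_i ↦ 1 ⊗ β i` whose kernel is an ideal, i.e. the ideals `I` of `R ⊗ A` such that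
`R^g → (R ⊗ A) / I`, `e_i ↦ β i`, is bijective (`Ideal/Points.lean`).

* `ChartAlg k A β` : the representing `k`-algebra (generators `x_{a,i}`, `a : A`, `i : Fin g`);
* `chartEquiv : (ChartAlg k A β →ₐ[k] R) ≃ {r : A →ₗ[k] (Fin g → R) // IsRetr β r}`, natural in `R`
  (`chartEquiv_comp`).
-/
import Mathlib

set_option autoImplicit false
set_option linter.unusedSectionVars false

noncomputable section

namespace Fermat.Agent.S25lib.Ideal

open MvPolynomial

variable (k : Type*) [CommRing k] (A : Type*) [CommRing A] [Algebra k A] {g : ℕ} (β : Fin g → A)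

/-- **retraction data**: `r β_i = e_i` and the kernel of the `R`-linear extension is an ideal -/
structure IsRetr {k : Type*} [CommRing k] {A : Type*} [CommRing A] [Algebra k A] {g : ℕ}
    (β : Fin g → A) {R : Type*} [CommRing R] [Algebra k R] (r : A →ₗ[k] (Fin g → R)) : Prop where
  basis : ∀ i, r (β i) = Pi.single i 1
  mul : ∀ x y : A, r (x * y) = ∑ i, r y i • r (x * β i)

/-- the relations of the chart algebra -/
def chartRel : Set (MvPolynomial (A × Fin g) k) :=
  (Set.range fun p : A × A × Fin g => X (p.1 + p.2.1, p.2.2) - X (p.1, p.2.2) - X (p.2.1, p.2.2)) ∪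
  (Set.range fun p : k × A × Fin g => X (p.1 • p.2.1, p.2.2) - C p.1 * X (p.2.1, p.2.2)) ∪
  (Set.range fun p : Fin g × Fin g => X (β p.1, p.2) - if p.2 = p.1 then 1 else 0) ∪
  (Set.range fun p : A × A × Fin g =>
    X (p.1 * p.2.1, p.2.2) - ∑ j, X (p.2.1, j) * X (p.1 * β j, p.2.2))

/-- **the chart algebra**: it represents the retraction data -/
abbrev ChartAlg : Type _ := MvPolynomial (A × Fin g) k ⧸ Ideal.span (chartRel k A β)

/-- the generators -/
def ChartAlg.x (a : A) (i : Fin g) : ChartAlg k A β :=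
  Ideal.Quotient.mk (Ideal.span (chartRel k A β)) (X (a, i))

variable {k A β}

theorem ChartAlg.x_add (a b : A) (i : Fin g) :
    ChartAlg.x k A β (a + b) i = ChartAlg.x k A β a i + ChartAlg.x k A β b i := by
  unfold ChartAlg.x
  rw [← map_add, ← sub_eq_zero, ← map_sub, Ideal.Quotient.eq_zero_iff_mem, ← sub_sub]
  exact Ideal.subset_span (Or.inl (Or.inl (Or.inl ⟨(a, b, i), rfl⟩)))

theorem ChartAlg.x_smul (c : k) (a : A) (i : Fin g) :
    ChartAlg.x k A β (c • a) i = c • ChartAlg.x k A β a i := by
  unfold ChartAlg.x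
  have h1 : c • (Ideal.Quotient.mk (Ideal.span (chartRel k A β))) (X (a, i)) =
      Ideal.Quotient.mk (Ideal.span (chartRel k A β)) (C c * X (a, i)) := by
    rw [← MvPolynomial.smul_eq_C_mul]
    exact (map_smul (Ideal.Quotient.mkₐ k (Ideal.span (chartRel k A β))) c (X (a, i))).symm
  rw [h1, ← sub_eq_zero, ← map_sub, Ideal.Quotient.eq_zero_iff_mem]
  exact Ideal.subset_span (Or.inl (Or.inl (Or.inr ⟨(c, a, i), rfl⟩)))

theorem ChartAlg.x_basis (j i : Fin g) :
    ChartAlg.x k A β (β j) i = if i = j then 1 else 0 := by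
  unfold ChartAlg.x
  have h : (Ideal.Quotient.mk (Ideal.span (chartRel k A β)))
      (if i = j then (1 : MvPolynomial (A × Fin g) k) else 0) =
      (if i = j then (1 : ChartAlg k A β) else 0) := by
    split_ifs
    · exact map_one _
    · exact map_zero _
  rw [← h, ← sub_eq_zero, ← map_sub, Ideal.Quotient.eq_zero_iff_mem]
  exact Ideal.subset_span (Or.inl (Or.inr ⟨(j, i), rfl⟩))

theorem ChartAlg.x_mul (a b : A) (i : Fin g) :
    ChartAlg.x k A β (a * b) i =
      ∑ j, ChartAlg.x k A β b j * ChartAlg.x k A β (a * β j) i := by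
  unfold ChartAlg.x
  simp only [← map_mul, ← map_sum]
  rw [← sub_eq_zero, ← map_sub, Ideal.Quotient.eq_zero_iff_mem]
  exact Ideal.subset_span (Or.inr ⟨(a, b, i), rfl⟩)

/-- the universal retraction datum -/
def univRetr : A →ₗ[k] (Fin g → ChartAlg k A β) where
  toFun a i := ChartAlg.x k A β a i
  map_add' a b := funext fun i => ChartAlg.x_add a b i
  map_smul' c a := funext fun i => ChartAlg.x_smul c a i

@[simp] theorem univRetr_apply (a : A) (i : Fin g) :
    univRetr (k := k) (β := β) a i = ChartAlg.x k A β a i := rfl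

theorem isRetr_univRetr : IsRetr β (univRetr (k := k) (β := β)) where
  basis j := funext fun i => by
    rw [univRetr_apply, ChartAlg.x_basis, Pi.single_apply]
  mul a b := funext fun i => by
    rw [univRetr_apply, ChartAlg.x_mul, Finset.sum_apply]
    rfl

section Points

variable {R : Type*} [CommRing R] [Algebra k R]

/-- push a retraction datum along an algebra map -/
def mapRetr {R' : Type*} [CommRing R'] [Algebra k R'] (φ : R →ₐ[k] R')
    (r : A →ₗ[k] (Fin g → R)) : A →ₗ[k] (Fin g → R') where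
  toFun a i := φ (r a i)
  map_add' a b := funext fun i => by simp
  map_smul' c a := funext fun i => by simp

@[simp] theorem mapRetr_apply {R' : Type*} [CommRing R'] [Algebra k R'] (φ : R →ₐ[k] R')
    (r : A →ₗ[k] (Fin g → R)) (a : A) (i : Fin g) : mapRetr φ r a i = φ (r a i) := rfl

theorem IsRetr.map {R' : Type*} [CommRing R'] [Algebra k R'] (φ : R →ₐ[k] R')
    {r : A →ₗ[k] (Fin g → R)} (hr : IsRetr β r) : IsRetr β (mapRetr φ r) where
  basis j := funext fun i => by
    rw [mapRetr_apply, hr.basis j, Pi.single_apply, Pi.single_apply]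
    split_ifs <;> simp
  mul a b := funext fun i => by
    rw [mapRetr_apply, hr.mul a b, Finset.sum_apply, Finset.sum_apply, map_sum]
    refine Finset.sum_congr rfl fun j _ => ?_
    simp [mapRetr_apply]

/-- the algebra map of a retraction datum -/
def ofRetr (r : A →ₗ[k] (Fin g → R)) (hr : IsRetr β r) : ChartAlg k A β →ₐ[k] R :=
  Ideal.Quotient.liftₐ (Ideal.span (chartRel k A β))
    (MvPolynomial.aeval fun p : A × Fin g => r p.1 p.2) (by
      intro f hf
      have hle : Ideal.span (chartRel k A β) ≤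
          RingHom.ker (MvPolynomial.aeval (R := k) fun p : A × Fin g => r p.1 p.2) := by
        rw [Ideal.span_le]
        rintro _ (((⟨⟨a, b, i⟩, rfl⟩ | ⟨⟨c, a, i⟩, rfl⟩) | ⟨⟨j, i⟩, rfl⟩) | ⟨⟨a, b, i⟩, rfl⟩)
        · simp [RingHom.mem_ker]
        · show _ ∈ RingHom.ker _
          rw [RingHom.mem_ker, map_sub, map_mul, aeval_X, aeval_X, aeval_C, map_smul,
            Pi.smul_apply, Algebra.smul_def, sub_self]
        · simp only [SetLike.mem_coe, RingHom.mem_ker, map_sub, aeval_X, hr.basis j,
            Pi.single_apply]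
          split_ifs <;> simp
        · simp only [SetLike.mem_coe, RingHom.mem_ker, map_sub, aeval_X, map_sum, map_mul,
            hr.mul a b, Finset.sum_apply, Pi.smul_apply, smul_eq_mul, sub_self]
      exact hle hf)

@[simp] theorem ofRetr_x (r : A →ₗ[k] (Fin g → R)) (hr : IsRetr β r) (a : A) (i : Fin g) :
    ofRetr r hr (ChartAlg.x k A β a i) = r a i := by
  unfold ofRetr ChartAlg.x
  rw [Ideal.Quotient.liftₐ_apply, Ideal.Quotient.lift_mk]
  simp

theorem ChartAlg.algHom_ext {φ ψ : ChartAlg k A β →ₐ[k] R}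
    (h : ∀ a i, φ (ChartAlg.x k A β a i) = ψ (ChartAlg.x k A β a i)) : φ = ψ := by
  apply Ideal.Quotient.algHom_ext
  apply MvPolynomial.algHom_ext
  rintro ⟨a, i⟩
  exact h a i

/-- **the chart algebra represents the retraction data** -/
def chartEquiv : (ChartAlg k A β →ₐ[k] R) ≃ {r : A →ₗ[k] (Fin g → R) // IsRetr β r} where
  toFun φ := ⟨mapRetr φ univRetr, isRetr_univRetr.map φ⟩
  invFun r := ofRetr r.1 r.2
  left_inv φ := ChartAlg.algHom_ext fun a i => by
    rw [ofRetr_x]; rfl
  right_inv r := Subtype.ext <| LinearMap.ext fun a => funext fun i => by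
    show ofRetr r.1 r.2 (ChartAlg.x k A β a i) = _
    rw [ofRetr_x]

@[simp] theorem chartEquiv_apply (φ : ChartAlg k A β →ₐ[k] R) (a : A) (i : Fin g) :
    (chartEquiv φ).1 a i = φ (ChartAlg.x k A β a i) := rfl

/-- naturality of the representation -/
theorem chartEquiv_comp {R' : Type*} [CommRing R'] [Algebra k R'] (ψ : R →ₐ[k] R')
    (φ : ChartAlg k A β →ₐ[k] R) :
    (chartEquiv (ψ.comp φ)).1 = mapRetr ψ (chartEquiv φ).1 := rfl

end Points

end Fermat.Agent.S25lib.Ideal
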