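/-
S25lib / Ideal / Points  (helper1)  --  Project L (S25), block (I3)-algebra, (ID1)

**Retraction data = ideals with a free quotient on `β`.**
`R` a `k`-algebra, `A_R = R ⊗[k] A`.  A retraction datum `r` (see `Ideal/Chart`) extends to an
`R`-linear retraction `ext r : A_R → R^g` of `sec β : R^g → A_R`, `e_i ↦ 1 ⊗ β i`, whose kernel
`kerIdeal r` is an ideal with `R^g ≃ A_R / kerIdeal r`; conversely every ideal `I` with
`R^g → A_R / I` bijective comes from a unique retraction datum.

* `pointsEquiv : {r // IsRetr β r} ≃ HilbPt k β R`;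
* `kerIdeal_mapRetr` : naturality, `kerIdeal (φ ∘ r) = (kerIdeal r) · A_{R'}`.
-/
import Mathlib
import Fermat.Agent.S25lib.Ideal.Chart

set_option autoImplicit false
set_option linter.unusedSectionVars false

noncomputable section

namespace Fermat.Agent.S25lib.Ideal

open TensorProduct

variable {k : Type*} [CommRing k] {A : Type*} [CommRing A] [Algebra k A] {g : ℕ} {β : Fin g → A}
  {R : Type*} [CommRing R] [Algebra k R]

/-- the section `R^g → A_R`, `e_i ↦ 1 ⊗ β i` -/
def sec (β : Fin g → A) (R : Type*) [CommRing R] [Algebra k R] :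
    (Fin g → R) →ₗ[R] R ⊗[k] A :=
  Fintype.linearCombination R fun i => (1 : R) ⊗ₜ[k] β i

theorem sec_apply (v : Fin g → R) : sec β R v = ∑ i, v i ⊗ₜ[k] β i := by
  unfold sec
  rw [Fintype.linearCombination_apply]
  refine Finset.sum_congr rfl fun i _ => ?_
  rw [TensorProduct.smul_tmul', smul_eq_mul, mul_one]

theorem sec_single (i : Fin g) : sec β R (Pi.single i 1) = (1 : R) ⊗ₜ[k] β i := by
  unfold sec
  rw [Fintype.linearCombination_apply_single, one_smul]

/-- the `R`-linear extension of a retraction datum -/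
def ext (r : A →ₗ[k] (Fin g → R)) : R ⊗[k] A →ₗ[R] (Fin g → R) :=
  LinearMap.liftBaseChange R r

@[simp] theorem ext_tmul (r : A →ₗ[k] (Fin g → R)) (c : R) (a : A) :
    ext r (c ⊗ₜ[k] a) = c • r a := by
  unfold ext
  rw [LinearMap.liftBaseChange_tmul]

/-- **points of the chart**: ideals of `A_R` with quotient free on the image of `β` -/
def HilbPt (k : Type*) [CommRing k] {A : Type*} [CommRing A] [Algebra k A] {g : ℕ}
    (β : Fin g → A) (R : Type*) [CommRing R] [Algebra k R] : Type _ :=
  {I : Ideal (R ⊗[k] A) // Function.Bijective fun v : Fin g → R =>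
    Ideal.Quotient.mk I (sec β R v)}

section Retr

variable {r : A →ₗ[k] (Fin g → R)} (hr : IsRetr β r)

include hr

theorem ext_sec (v : Fin g → R) : ext r (sec β R v) = v := by
  rw [sec_apply, map_sum]
  simp only [ext_tmul, hr.basis]
  funext j
  rw [Finset.sum_apply]
  simp [Pi.single_apply]

/-- the multiplicativity relation, extended to `A_R` -/
theorem ext_mul (x y : R ⊗[k] A) :
    ext r (x * y) = ∑ i, ext r y i • ext r (x * ((1 : R) ⊗ₜ[k] β i)) := by
  induction y using TensorProduct.induction_on with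
  | zero => simp
  | add y y' hy hy' =>
    rw [mul_add, map_add, hy, hy', ← Finset.sum_add_distrib]
    refine Finset.sum_congr rfl fun i _ => ?_
    rw [map_add, Pi.add_apply, add_smul]
  | tmul d b =>
    induction x using TensorProduct.induction_on with
    | zero => simp
    | add x x' hx hx' =>
      rw [add_mul, map_add, hx, hx', ← Finset.sum_add_distrib]
      refine Finset.sum_congr rfl fun i _ => ?_
      rw [add_mul, map_add, smul_add]
    | tmul c a =>
      rw [Algebra.TensorProduct.tmul_mul_tmul, ext_tmul, hr.mul a b, Finset.smul_sum]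
      refine Finset.sum_congr rfl fun i _ => ?_
      rw [Algebra.TensorProduct.tmul_mul_tmul, ext_tmul, ext_tmul, mul_one, Pi.smul_apply,
        smul_smul, smul_smul, smul_eq_mul]
      congr 1
      ring

/-- **the kernel of a retraction datum is an ideal** -/
def kerIdeal (r : A →ₗ[k] (Fin g → R)) (hr : IsRetr β r) : Ideal (R ⊗[k] A) where
  carrier := {x | ext r x = 0}
  add_mem' := by
    intro x y hx hy
    show ext r (x + y) = 0
    rw [map_add, hx, hy, add_zero]
  zero_mem' := map_zero _
  smul_mem' := by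
    intro x y hy
    show ext r (x * y) = 0
    rw [ext_mul hr, Finset.sum_eq_zero]
    intro i _
    have : ext r y = 0 := hy
    rw [this, Pi.zero_apply, zero_smul]

theorem mem_kerIdeal {x : R ⊗[k] A} : x ∈ kerIdeal r hr ↔ ext r x = 0 := Iff.rfl

theorem sub_sec_mem_kerIdeal (x : R ⊗[k] A) : x - sec β R (ext r x) ∈ kerIdeal r hr := by
  rw [mem_kerIdeal, map_sub, ext_sec hr, sub_self]

theorem bijective_kerIdeal :
    Function.Bijective fun v : Fin g → R => Ideal.Quotient.mk (kerIdeal r hr) (sec β R v) := by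
  constructor
  · intro v w hvw
    have h1 : sec β R v - sec β R w ∈ kerIdeal r hr := Ideal.Quotient.eq.mp hvw
    rw [mem_kerIdeal, map_sub, ext_sec hr, ext_sec hr, sub_eq_zero] at h1
    exact h1
  · intro q
    obtain ⟨x, rfl⟩ := Ideal.Quotient.mk_surjective q
    refine ⟨ext r x, ?_⟩
    exact (Ideal.Quotient.eq.mpr (sub_sec_mem_kerIdeal hr x)).symm

end Retr

section Ideal

variable (I : Ideal (R ⊗[k] A))
  (hI : Function.Bijective fun v : Fin g → R => Ideal.Quotient.mk I (sec β R v))

/-- the quotient map as an `R`-linear map -/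
def mkLin : R ⊗[k] A →ₗ[R] (R ⊗[k] A) ⧸ I :=
  (Ideal.Quotient.mkₐ R I).toLinearMap

theorem mkLin_apply (x : R ⊗[k] A) : mkLin I x = Ideal.Quotient.mk I x := rfl

/-- the coordinates `R^g ≃ A_R / I` -/
def coordEquiv : (Fin g → R) ≃ₗ[R] (R ⊗[k] A) ⧸ I :=
  LinearEquiv.ofBijective ((mkLin I).comp (sec β R)) hI

theorem coordEquiv_apply (v : Fin g → R) :
    coordEquiv I hI v = Ideal.Quotient.mk I (sec β R v) := rfl

/-- the retraction `A_R → R^g` of an ideal with quotient free on `β` -/
def retrLin : R ⊗[k] A →ₗ[R] (Fin g → R) :=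
  (coordEquiv I hI).symm.toLinearMap.comp (mkLin I)

theorem mk_sec_retrLin (x : R ⊗[k] A) :
    Ideal.Quotient.mk I (sec β R (retrLin I hI x)) = Ideal.Quotient.mk I x := by
  rw [← coordEquiv_apply I hI]
  exact (coordEquiv I hI).apply_symm_apply _

theorem retrLin_eq_zero_iff (x : R ⊗[k] A) : retrLin I hI x = 0 ↔ x ∈ I := by
  constructor
  · intro h
    have := mk_sec_retrLin I hI x
    rw [h, map_zero, map_zero] at this
    exact Ideal.Quotient.eq_zero_iff_mem.mp this.symm
  · intro h
    show (coordEquiv I hI).symm (Ideal.Quotient.mk I x) = 0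
    rw [Ideal.Quotient.eq_zero_iff_mem.mpr h, map_zero]

theorem retrLin_sec (v : Fin g → R) : retrLin I hI (sec β R v) = v := by
  show (coordEquiv I hI).symm (Ideal.Quotient.mk I (sec β R v)) = v
  rw [← coordEquiv_apply I hI, LinearEquiv.symm_apply_apply]

/-- the retraction datum of an ideal with quotient free on `β` -/
def retrOfIdeal : A →ₗ[k] (Fin g → R) where
  toFun a := retrLin I hI ((1 : R) ⊗ₜ[k] a)
  map_add' a b := by rw [TensorProduct.tmul_add, map_add]
  map_smul' c a := by
    rw [TensorProduct.tmul_smul, RingHom.id_apply]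
    have : c • ((1 : R) ⊗ₜ[k] a) = (algebraMap k R c) • ((1 : R) ⊗ₜ[k] a) := by
      rw [algebraMap_smul]
    rw [this, map_smul, algebraMap_smul]

theorem retrOfIdeal_apply (a : A) : retrOfIdeal I hI a = retrLin I hI ((1 : R) ⊗ₜ[k] a) := rfl

theorem ext_retrOfIdeal : ext (retrOfIdeal I hI) = retrLin I hI := by
  apply TensorProduct.AlgebraTensorModule.curry_injective
  ext a
  simp only [TensorProduct.AlgebraTensorModule.curry_apply, LinearMap.restrictScalars_apply,
    TensorProduct.curry_apply]
  rw [ext_tmul, one_smul, retrOfIdeal_apply]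

theorem isRetr_retrOfIdeal : IsRetr β (retrOfIdeal I hI) where
  basis i := by
    rw [retrOfIdeal_apply, ← sec_single, retrLin_sec]
  mul x y := by
    -- in `A_R / I`: `y ≡ ∑ r(y)_i β_i`, hence `x y ≡ ∑ r(y)_i x β_i`
    have h1 : ((1 : R) ⊗ₜ[k] y) - sec β R (retrLin I hI ((1 : R) ⊗ₜ[k] y)) ∈ I := by
      rw [← retrLin_eq_zero_iff I hI, map_sub, retrLin_sec, sub_self]
    have h2 : ((1 : R) ⊗ₜ[k] x) * (((1 : R) ⊗ₜ[k] y) -
        sec β R (retrLin I hI ((1 : R) ⊗ₜ[k] y))) ∈ I := I.mul_mem_left _ h1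
    rw [← retrLin_eq_zero_iff I hI, mul_sub, map_sub, sub_eq_zero,
      Algebra.TensorProduct.tmul_mul_tmul, mul_one] at h2
    rw [retrOfIdeal_apply, h2, sec_apply, Finset.mul_sum, map_sum]
    refine Finset.sum_congr rfl fun i _ => ?_
    rw [Algebra.TensorProduct.tmul_mul_tmul, one_mul, retrOfIdeal_apply, retrOfIdeal_apply]
    have : (retrLin I hI ((1 : R) ⊗ₜ[k] y) i) ⊗ₜ[k] (x * β i) =
        (retrLin I hI ((1 : R) ⊗ₜ[k] y) i) • ((1 : R) ⊗ₜ[k] (x * β i)) := by
      rw [TensorProduct.smul_tmul', smul_eq_mul, mul_one]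
    rw [this, map_smul]

theorem kerIdeal_retrOfIdeal : kerIdeal (retrOfIdeal I hI) (isRetr_retrOfIdeal I hI) = I := by
  ext x
  rw [mem_kerIdeal, ext_retrOfIdeal, retrLin_eq_zero_iff]

end Ideal

theorem retrOfIdeal_kerIdeal {r : A →ₗ[k] (Fin g → R)} (hr : IsRetr β r) :
    retrOfIdeal (kerIdeal r hr) (bijective_kerIdeal hr) = r := by
  ext a : 1
  rw [retrOfIdeal_apply]
  have h1 := sub_sec_mem_kerIdeal hr ((1 : R) ⊗ₜ[k] a)
  rw [← retrLin_eq_zero_iff _ (bijective_kerIdeal hr), map_sub, retrLin_sec, sub_eq_zero] at h1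
  rw [h1, ext_tmul, one_smul]

/-- **retraction data = ideals with quotient free on `β`** -/
def pointsEquiv : {r : A →ₗ[k] (Fin g → R) // IsRetr β r} ≃ HilbPt k β R where
  toFun r := ⟨kerIdeal r.1 r.2, bijective_kerIdeal r.2⟩
  invFun I := ⟨retrOfIdeal I.1 I.2, isRetr_retrOfIdeal I.1 I.2⟩
  left_inv r := Subtype.ext (retrOfIdeal_kerIdeal r.2)
  right_inv I := Subtype.ext (kerIdeal_retrOfIdeal I.1 I.2)

/-- **the chart algebra represents the functor of ideals with quotient free on `β`** -/
def hilbPtEquiv : (ChartAlg k A β →ₐ[k] R) ≃ HilbPt k β R := chartEquiv.trans pointsEquiv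

/-! ### naturality in `R` -/

section Natural

variable {R' : Type*} [CommRing R'] [Algebra k R'] (φ : R →ₐ[k] R')

/-- base change `A_R → A_{R'}` -/
def bc (A : Type*) [CommRing A] [Algebra k A] (φ : R →ₐ[k] R') : R ⊗[k] A →ₐ[k] R' ⊗[k] A :=
  Algebra.TensorProduct.map φ (AlgHom.id k A)

@[simp] theorem bc_tmul (c : R) (a : A) : bc A φ (c ⊗ₜ[k] a) = φ c ⊗ₜ[k] a := by
  unfold bc
  rw [Algebra.TensorProduct.map_tmul]
  rfl

theorem bc_sec (v : Fin g → R) : bc A φ (sec β R v) = sec β R' fun i => φ (v i) := by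
  rw [sec_apply, sec_apply, map_sum]
  simp only [bc_tmul]

theorem ext_mapRetr_bc (r : A →ₗ[k] (Fin g → R)) (x : R ⊗[k] A) :
    ext (mapRetr φ r) (bc A φ x) = fun i => φ (ext r x i) := by
  induction x using TensorProduct.induction_on with
  | zero => simp; rfl
  | add x y hx hy =>
    rw [map_add, map_add, map_add, hx, hy]
    funext i
    simp
  | tmul c a =>
    rw [bc_tmul, ext_tmul, ext_tmul]
    funext i
    simp

/-- **naturality**: the ideal of the pushed retraction datum is the extended ideal -/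
theorem kerIdeal_mapRetr {r : A →ₗ[k] (Fin g → R)} (hr : IsRetr β r) :
    kerIdeal (mapRetr φ r) (hr.map φ) = Ideal.map (bc A φ) (kerIdeal r hr) := by
  apply le_antisymm
  · have key : ∀ x' : R' ⊗[k] A,
        x' - sec β R' (ext (mapRetr φ r) x') ∈ Ideal.map (bc A φ) (kerIdeal r hr) := by
      intro x'
      induction x' using TensorProduct.induction_on with
      | zero => simp
      | add x y hx hy =>
        have : x + y - sec β R' (ext (mapRetr φ r) (x + y)) =
            (x - sec β R' (ext (mapRetr φ r) x)) + (y - sec β R' (ext (mapRetr φ r) y)) := by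
          rw [map_add, map_add]; abel
        rw [this]
        exact Ideal.add_mem _ hx hy
      | tmul c a =>
        have h1 : c ⊗ₜ[k] a - sec β R' (ext (mapRetr φ r) (c ⊗ₜ[k] a)) =
            (c ⊗ₜ[k] (1 : A)) * bc A φ ((1 : R) ⊗ₜ[k] a - sec β R (ext r ((1 : R) ⊗ₜ[k] a))) := by
          rw [map_sub, bc_tmul, bc_sec, map_one, mul_sub, Algebra.TensorProduct.tmul_mul_tmul,
            mul_one, one_mul, ext_tmul, ext_tmul, one_smul, map_smul]
          congr 1
          have h2 : (mapRetr φ r) a = fun i => φ (r a i) := rfl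
          rw [h2, sec_apply, Finset.mul_sum, Finset.smul_sum]
          refine Finset.sum_congr rfl fun i _ => ?_
          rw [Algebra.TensorProduct.tmul_mul_tmul, one_mul, TensorProduct.smul_tmul', smul_eq_mul]
        rw [h1]
        exact Ideal.mul_mem_left _ _ (Ideal.mem_map_of_mem _ (sub_sec_mem_kerIdeal hr _))
    intro x' hx'
    have h0 : ext (mapRetr φ r) x' = 0 := hx'
    have := key x'
    rwa [h0, map_zero, sub_zero] at this
  · rw [Ideal.map_le_iff_le_comap]
    intro x hx
    have h0 : ext r x = 0 := hx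
    show ext (mapRetr φ r) (bc A φ x) = 0
    rw [ext_mapRetr_bc, h0]
    funext i
    simp

end Natural

/-- the ideal of a retraction datum is spanned by the `1 ⊗ a - ∑ r(a)_i ⊗ β_i` -/
theorem kerIdeal_eq_span {r : A →ₗ[k] (Fin g → R)} (hr : IsRetr β r) :
    kerIdeal r hr = Ideal.span (Set.range fun a : A => (1 : R) ⊗ₜ[k] a - sec β R (r a)) := by
  apply le_antisymm
  · have key : ∀ x : R ⊗[k] A, x - sec β R (ext r x) ∈
        Ideal.span (Set.range fun a : A => (1 : R) ⊗ₜ[k] a - sec β R (r a)) := by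
      intro x
      induction x using TensorProduct.induction_on with
      | zero => simp
      | add x y hx hy =>
        have : x + y - sec β R (ext r (x + y)) =
            (x - sec β R (ext r x)) + (y - sec β R (ext r y)) := by
          rw [map_add, map_add]; abel
        rw [this]
        exact Ideal.add_mem _ hx hy
      | tmul c a =>
        have h1 : c ⊗ₜ[k] a - sec β R (ext r (c ⊗ₜ[k] a)) =
            (c ⊗ₜ[k] (1 : A)) * ((1 : R) ⊗ₜ[k] a - sec β R (r a)) := by
          rw [mul_sub, Algebra.TensorProduct.tmul_mul_tmul, mul_one, one_mul, ext_tmul, map_smul]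
          congr 1
          rw [sec_apply, Finset.mul_sum, Finset.smul_sum]
          refine Finset.sum_congr rfl fun i _ => ?_
          rw [Algebra.TensorProduct.tmul_mul_tmul, one_mul, TensorProduct.smul_tmul', smul_eq_mul]
        rw [h1]
        exact Ideal.mul_mem_left _ _ (Ideal.subset_span ⟨a, rfl⟩)
    intro x hx
    have h0 : ext r x = 0 := hx
    have := key x
    rwa [h0, map_zero, sub_zero] at this
  · rw [Ideal.span_le]
    rintro _ ⟨a, rfl⟩
    have := sub_sec_mem_kerIdeal hr ((1 : R) ⊗ₜ[k] a)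
    rwa [ext_tmul, one_smul] at this

end Fermat.Agent.S25lib.Ideal
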