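/-
S25lib / Ideal / Fibre  (helper1)  --  Project L (S25), block `Ideal` (Cartier algebra)

**The fibre of `A_R = R ⊗[k] A` over a point of `Spec R`.**
`k` a field, `φ : R →ₐ[k] K` a `k`-algebra map to a field `K` which is a field of fractions of its
image (`IsFibreField φ`: every element of `K` is `φ r / φ t`); e.g. `K = κ(𝔮)`.  Then
`π = bc A φ : A_R → A_K` has kernel `(ker φ) A_R` (`mem_ker_bc_iff`) and every element of `A_K`
becomes an element of `π (A_R)` after multiplication by some `φ t ≠ 0` (`exists_mul_eq_bc`), the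
same for the extended ideal `I A_K` (`exists_mul_eq_bc_of_mem_map`).
-/
import Mathlib
import Fermat.Agent.S25lib.Ideal.Points

set_option autoImplicit false
set_option linter.unusedSectionVars false

noncomputable section

namespace Fermat.Agent.S25lib.Ideal

open TensorProduct

variable {k : Type*} [Field k] {A : Type*} [CommRing A] [Algebra k A]
  {R : Type*} [CommRing R] [Algebra k R] {K : Type*} [Field K] [Algebra k K]

/-- `K` is generated as a field by the image of `φ` -/
def IsFibreField (φ : R →ₐ[k] K) : Prop :=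
  ∀ c : K, ∃ r t : R, φ t ≠ 0 ∧ c * φ t = φ r

variable (φ : R →ₐ[k] K)

/-- the scalar `φ t` in `A_K` -/
def scal (A : Type*) [CommRing A] [Algebra k A] (φ : R →ₐ[k] K) (t : R) : K ⊗[k] A :=
  φ t ⊗ₜ[k] (1 : A)

theorem scal_eq_bc (t : R) : scal A φ t = bc A φ (t ⊗ₜ[k] (1 : A)) := by
  rw [bc_tmul]; rfl

theorem scal_mul (t t' : R) : scal A φ (t * t') = scal A φ t * scal A φ t' := by
  unfold scal
  rw [Algebra.TensorProduct.tmul_mul_tmul, map_mul, mul_one]

/-- clearing denominators -/
theorem exists_mul_eq_bc (hφ : IsFibreField φ) (x : K ⊗[k] A) :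
    ∃ t : R, φ t ≠ 0 ∧ ∃ y : R ⊗[k] A, scal A φ t * x = bc A φ y := by
  induction x using TensorProduct.induction_on with
  | zero => exact ⟨1, by simp, 0, by simp⟩
  | tmul c a =>
    obtain ⟨r, t, ht, hc⟩ := hφ c
    refine ⟨t, ht, r ⊗ₜ[k] a, ?_⟩
    unfold scal
    rw [Algebra.TensorProduct.tmul_mul_tmul, one_mul, bc_tmul, mul_comm, hc]
  | add x y hx hy =>
    obtain ⟨t, ht, u, hu⟩ := hx
    obtain ⟨t', ht', u', hu'⟩ := hy
    refine ⟨t * t', by rw [map_mul]; exact mul_ne_zero ht ht',
      (t' ⊗ₜ[k] (1 : A)) * u + (t ⊗ₜ[k] (1 : A)) * u', ?_⟩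
    rw [map_add, map_mul, map_mul, ← hu, ← hu', ← scal_eq_bc, ← scal_eq_bc, scal_mul]
    ring

/-- clearing denominators in the extended ideal -/
theorem exists_mul_eq_bc_of_mem_map (hφ : IsFibreField φ) (I : Ideal (R ⊗[k] A))
    {x : K ⊗[k] A} (hx : x ∈ I.map (bc A φ)) :
    ∃ t : R, φ t ≠ 0 ∧ ∃ y ∈ I, scal A φ t * x = bc A φ y := by
  unfold Ideal.map at hx
  induction hx using Submodule.span_induction with
  | mem x hx =>
    obtain ⟨y, hy, rfl⟩ := hx
    exact ⟨1, by simp, y, hy, by unfold scal; rw [map_one]; exact one_mul _⟩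
  | zero => exact ⟨1, by simp, 0, I.zero_mem, by simp⟩
  | add x y _ _ hx hy =>
    obtain ⟨t, ht, u, huI, hu⟩ := hx
    obtain ⟨t', ht', u', huI', hu'⟩ := hy
    refine ⟨t * t', by rw [map_mul]; exact mul_ne_zero ht ht',
      (t' ⊗ₜ[k] (1 : A)) * u + (t ⊗ₜ[k] (1 : A)) * u',
      I.add_mem (I.mul_mem_left _ huI) (I.mul_mem_left _ huI'), ?_⟩
    rw [map_add, map_mul, map_mul, ← hu, ← hu', ← scal_eq_bc, ← scal_eq_bc, scal_mul]
    ring
  | smul c x _ hx =>
    obtain ⟨t, ht, u, huI, hu⟩ := hx
    obtain ⟨t', ht', c', hc'⟩ := exists_mul_eq_bc φ hφ c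
    refine ⟨t' * t, by rw [map_mul]; exact mul_ne_zero ht' ht, c' * u, I.mul_mem_left _ huI, ?_⟩
    rw [map_mul, ← hu, ← hc', scal_mul, smul_eq_mul]
    ring

/-- the kernel of the base change to the fibre is `(ker φ) A_R` -/
theorem mem_ker_bc_iff (x : R ⊗[k] A) :
    bc A φ x = 0 ↔ x ∈ (RingHom.ker (φ : R →+* K)) • (⊤ : Submodule R (R ⊗[k] A)) := by
  classical
  let b := Module.Basis.ofVectorSpace k A
  let bR := Algebra.TensorProduct.basis R b
  let bK := Algebra.TensorProduct.basis K b
  have hrepr : ∀ y : R ⊗[k] A, ∀ i, bK.repr (bc A φ y) i = φ (bR.repr y i) := by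
    intro y i
    induction y using TensorProduct.induction_on with
    | zero => simp
    | tmul c a =>
      rw [bc_tmul, Algebra.TensorProduct.basis_repr_tmul, Algebra.TensorProduct.basis_repr_tmul]
      simp only [Finsupp.smul_apply, Finsupp.mapRange_apply, smul_eq_mul, map_mul]
      congr 1
      exact (φ.commutes _).symm
    | add y y' hy hy' =>
      rw [map_add, map_add, map_add, Finsupp.add_apply, Finsupp.add_apply, hy, hy', map_add]
  constructor
  · intro hx
    have hcoord : ∀ i, bR.repr x i ∈ RingHom.ker (φ : R →+* K) := by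
      intro i
      rw [RingHom.mem_ker]
      have := hrepr x i
      rw [hx, map_zero, Finsupp.zero_apply] at this
      exact this.symm
    rw [← bR.linearCombination_repr x, Finsupp.linearCombination_apply]
    exact Submodule.sum_mem _ fun i _ =>
      Submodule.smul_mem_smul (hcoord i) Submodule.mem_top
  · intro hx
    refine Submodule.smul_induction_on hx ?_ ?_
    · intro r hr y _
      rw [Algebra.smul_def, map_mul]
      have : bc A φ (algebraMap R (R ⊗[k] A) r) = 0 := by
        rw [Algebra.TensorProduct.algebraMap_apply, bc_tmul]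
        have hr' : φ r = 0 := hr
        simp [hr']
      rw [this, zero_mul]
    · intro y y' hy hy'
      rw [map_add, hy, hy', add_zero]

end Fermat.Agent.S25lib.Ideal
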