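/-
S25lib / Ideal / LocalGen  (helper1)  --  Project L (S25), block `Ideal` (Cartier algebra), (i)

**Local generators of an ideal with flat quotient and Dedekind fibres** (no Noetherian hypothesis).
`k` a field, `A_R = R ⊗[k] A`, `I ⊂ A_R` a finitely generated ideal with `A_R / I` flat over `R`,
`φ : R → K` a point of `Spec R` (`IsFibreField φ`) with `A_K` a Dedekind domain and `I A_K ≠ 0`.
Then there are `f ∈ I` and `Δ ∈ A_R` with `Δ I ⊆ f A_R` and `Δ ≡ T ^ n` modulo `I + (ker φ) A_R`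
for some `T ∈ R` with `φ T ≠ 0`: so `D(Δ)` is a neighbourhood of all the points of `V(I)` over the
point `φ`, on which `I` is generated by `f`.

Proof: in the Dedekind domain `A_K` we have `Ī = Ī² + (f̄)`; clear denominators, use the purity
`(ker φ) A_R ∩ I = (ker φ) I` (flatness of the quotient) and the Cayley–Hamilton form of
Nakayama's lemma for the module `I / f A_R` and the endomorphism `T`.
-/
import Mathlib
import Fermat.Agent.S25lib.Ideal.Fibre
import Fermat.Agent.S25lib.Ideal.Nakayama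
import Fermat.Agent.S26lib.RelCurve.Pure

set_option autoImplicit false
set_option linter.unusedSectionVars false

noncomputable section

namespace Fermat.Agent.S25lib.Ideal

open TensorProduct Fermat.Agent.S26lib.RelCurve

variable {k : Type*} [Field k] {A : Type*} [CommRing A] [Algebra k A]
  {R : Type*} [CommRing R] [Algebra k R] {K : Type*} [Field K] [Algebra k K]
  (φ : R →ₐ[k] K)

/-- the ideal `I + (ker φ) A_R` of the points of `V(I)` over the point `φ` of `Spec R` -/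
def fibreIdeal (I : Ideal (R ⊗[k] A)) : Ideal (R ⊗[k] A) :=
  I ⊔ (RingHom.ker (φ : R →+* K)).map (algebraMap R (R ⊗[k] A))

/-- `scal t` is a unit of `A_K` -/
theorem scal_mul_inv {t : R} (ht : φ t ≠ 0) :
    scal A φ t * ((φ t)⁻¹ ⊗ₜ[k] (1 : A)) = 1 := by
  unfold scal
  rw [Algebra.TensorProduct.tmul_mul_tmul, mul_inv_cancel₀ ht, mul_one]
  rfl

/-- **purity**: an element of `I` which dies in the fibre lies in `(ker φ) I ⊆ (I + (ker φ)A_R) I` -/
theorem mem_fibreIdeal_mul_of_bc_eq_zero (I : Ideal (R ⊗[k] A))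
    [Module.Flat R ((R ⊗[k] A) ⧸ I)] {x : R ⊗[k] A} (hx : x ∈ I) (h0 : bc A φ x = 0) :
    x ∈ fibreIdeal φ I * I := by
  have h1 := (mem_ker_bc_iff φ x).mp h0
  have hsurj : Function.Surjective (mkLin I) := Ideal.Quotient.mk_surjective
  have hker : mkLin I x = 0 := Ideal.Quotient.eq_zero_iff_mem.mpr hx
  have h2 := mem_smul_ker_of_flat (mkLin I) hsurj (RingHom.ker (φ : R →+* K)) hker h1
  refine Submodule.smul_induction_on h2 ?_ ?_
  · intro r hr u hu
    have hu' : u ∈ I := Ideal.Quotient.eq_zero_iff_mem.mp hu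
    rw [Algebra.smul_def]
    exact Ideal.mul_mem_mul (Ideal.mem_sup_right (Ideal.mem_map_of_mem _ hr)) hu'
  · intro u v hu hv
    exact Ideal.add_mem _ hu hv

variable [IsDedekindDomain (K ⊗[k] A)]

/-- the generator of the fibre ideal modulo its square, lifted to `I` -/
theorem exists_mem_map_sup_span (hφ : IsFibreField φ) (I : Ideal (R ⊗[k] A))
    (hne : I.map (bc A φ) ≠ ⊥) :
    ∃ f ∈ I, bc A φ f ≠ 0 ∧
      I.map (bc A φ) * I.map (bc A φ) ⊔ Ideal.span {bc A φ f} = I.map (bc A φ) := by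
  have h2 : I.map (bc A φ) * I.map (bc A φ) ≠ 0 := mul_ne_zero hne hne
  -- a generator modulo the square, which we may take non-zero
  have hex : ∃ a : K ⊗[k] A, a ≠ 0 ∧
      I.map (bc A φ) * I.map (bc A φ) ⊔ Ideal.span {a} = I.map (bc A φ) := by
    obtain ⟨a, ha⟩ := IsDedekindDomain.exists_sup_span_eq
      (Ideal.mul_le_left : I.map (bc A φ) * I.map (bc A φ) ≤ I.map (bc A φ)) h2
    by_cases ha0 : a = 0
    · obtain ⟨b, hb, hb0⟩ := Submodule.exists_mem_ne_zero_of_ne_bot hne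
      refine ⟨b, hb0, ?_⟩
      rw [ha0, Ideal.span_singleton_zero, sup_bot_eq] at ha
      rw [ha]
      exact sup_eq_left.mpr ((Ideal.span_singleton_le_iff_mem _).mpr hb)
    · exact ⟨a, ha0, ha⟩
  obtain ⟨a, ha0, ha⟩ := hex
  have haI : a ∈ I.map (bc A φ) := by
    rw [← ha]
    exact Ideal.mem_sup_right (Ideal.mem_span_singleton_self a)
  obtain ⟨t, ht, f, hf, hfa⟩ := exists_mul_eq_bc_of_mem_map φ hφ I haI
  have hunit : ((φ t)⁻¹ ⊗ₜ[k] (1 : A)) * (scal A φ t * a) = a := by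
    rw [← mul_assoc, mul_comm _ (scal A φ t), scal_mul_inv φ ht, one_mul]
  refine ⟨f, hf, ?_, ?_⟩
  · intro h0
    rw [← hfa] at h0
    rw [h0, mul_zero] at hunit
    exact ha0 hunit.symm
  have hspan : Ideal.span {bc A φ f} = Ideal.span {a} := by
    rw [← hfa]
    apply le_antisymm
    · rw [Ideal.span_singleton_le_iff_mem]
      exact Ideal.mul_mem_left _ _ (Ideal.mem_span_singleton_self a)
    · rw [Ideal.span_singleton_le_iff_mem]
      have h3 : ((φ t)⁻¹ ⊗ₜ[k] (1 : A)) * (scal A φ t * a) ∈ Ideal.span {scal A φ t * a} :=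
        Ideal.mul_mem_left _ _ (Ideal.mem_span_singleton_self _)
      rwa [hunit] at h3
  rw [hspan, ha]

/-- one element of `I`: `T x ∈ f A_R + (I + (ker φ) A_R) I` for some `T` with `φ T ≠ 0` -/
theorem exists_smul_mem_span_sup (hφ : IsFibreField φ) (I : Ideal (R ⊗[k] A))
    [Module.Flat R ((R ⊗[k] A) ⧸ I)] {f : R ⊗[k] A} (hf : f ∈ I)
    (hfI : I.map (bc A φ) * I.map (bc A φ) ⊔ Ideal.span {bc A φ f} = I.map (bc A φ))
    {x : R ⊗[k] A} (hx : x ∈ I) :
    ∃ T : R, φ T ≠ 0 ∧ T • x ∈ Ideal.span {f} ⊔ fibreIdeal φ I * I := by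
  have hx' : bc A φ x ∈ I.map (bc A φ) * I.map (bc A φ) ⊔ Ideal.span {bc A φ f} := by
    rw [hfI]
    exact Ideal.mem_map_of_mem _ hx
  obtain ⟨z, hz, w, hw, hzw⟩ := Submodule.mem_sup.mp hx'
  obtain ⟨y, rfl⟩ := Ideal.mem_span_singleton'.mp hw
  rw [← Ideal.map_mul] at hz
  obtain ⟨t, ht, z', hz', hzz'⟩ := exists_mul_eq_bc_of_mem_map φ hφ (I * I) hz
  obtain ⟨t', ht', y', hyy'⟩ := exists_mul_eq_bc φ hφ y
  refine ⟨t * t', by rw [map_mul]; exact mul_ne_zero ht ht', ?_⟩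
  -- the difference dies in the fibre
  set d : R ⊗[k] A := (t * t') • x - ((t' ⊗ₜ[k] (1 : A)) * z' + (t ⊗ₜ[k] (1 : A)) * y' * f)
    with hd
  have hdI : d ∈ I := by
    refine I.sub_mem (Submodule.smul_of_tower_mem _ _ hx) (I.add_mem ?_ ?_)
    · exact I.mul_mem_left _ (Ideal.mul_le_left hz')
    · exact I.mul_mem_left _ hf
  have hd0 : bc A φ d = 0 := by
    have h1 : bc A φ ((t * t') • x) = scal A φ (t * t') * bc A φ x := by
      rw [Algebra.smul_def, map_mul, Algebra.TensorProduct.algebraMap_apply, bc_tmul]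
      rfl
    rw [hd, map_sub, h1, map_add, map_mul, map_mul, map_mul, ← hzz', ← hyy', ← scal_eq_bc,
      ← scal_eq_bc, ← hzw, scal_mul]
    ring
  have hd' := mem_fibreIdeal_mul_of_bc_eq_zero φ I hdI hd0
  have : (t * t') • x = ((t ⊗ₜ[k] (1 : A)) * y') * f +
      ((t' ⊗ₜ[k] (1 : A)) * z' + d) := by
    rw [hd]; ring
  rw [this]
  refine Ideal.add_mem _ (Ideal.mem_sup_left (Ideal.mul_mem_left _ _
    (Ideal.mem_span_singleton_self f))) (Ideal.mem_sup_right (Ideal.add_mem _ ?_ hd'))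
  exact Ideal.mul_mem_left _ _ (Ideal.mul_mono_left le_sup_left hz')

/-- a uniform `T` for all of `I` -/
theorem exists_forall_smul_mem_span_sup (hφ : IsFibreField φ) (I : Ideal (R ⊗[k] A))
    (hfg : I.FG) [Module.Flat R ((R ⊗[k] A) ⧸ I)] {f : R ⊗[k] A} (hf : f ∈ I)
    (hfI : I.map (bc A φ) * I.map (bc A φ) ⊔ Ideal.span {bc A φ f} = I.map (bc A φ)) :
    ∃ T : R, φ T ≠ 0 ∧ ∀ x ∈ I, T • x ∈ Ideal.span {f} ⊔ fibreIdeal φ I * I := by
  classical
  obtain ⟨s, hs⟩ := hfg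
  have hsI : ∀ x ∈ s, x ∈ I := fun x hx => hs ▸ Ideal.subset_span hx
  choose! T hT hTx using fun x (hx : x ∈ s) =>
    exists_smul_mem_span_sup φ hφ I hf hfI (hsI x hx)
  refine ⟨∏ x ∈ s, T x, ?_, ?_⟩
  · rw [map_prod]
    exact Finset.prod_ne_zero_iff.mpr hT
  · intro x hx
    rw [← hs] at hx
    refine Submodule.span_induction ?_ ?_ ?_ ?_ hx
    · intro y hy
      have h1 : (∏ x ∈ s, T x) • y = (∏ x ∈ s.erase y, T x) • (T y • y) := by
        rw [smul_smul, Finset.prod_erase_mul s T hy]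
      rw [h1]
      exact Submodule.smul_of_tower_mem _ _ (hTx y hy)
    · rw [smul_zero]; exact Ideal.zero_mem _
    · intro y z _ _ hy hz
      rw [smul_add]; exact Ideal.add_mem _ hy hz
    · intro c y _ hy
      rw [smul_comm]
      exact Ideal.mul_mem_left _ c hy

/-- **the local generator**: `f ∈ I`, non-zero in the fibre, and `Δ ≡ T ^ n` modulo
`I + (ker φ) A_R` (`φ T ≠ 0`) with `Δ I ⊆ f A_R` -/
theorem exists_local_generator (hφ : IsFibreField φ) (I : Ideal (R ⊗[k] A)) (hfg : I.FG)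
    [Module.Flat R ((R ⊗[k] A) ⧸ I)] (hne : I.map (bc A φ) ≠ ⊥) :
    ∃ f ∈ I, bc A φ f ≠ 0 ∧ ∃ (Δ : R ⊗[k] A) (T : R) (n : ℕ), φ T ≠ 0 ∧
      Δ - (algebraMap R (R ⊗[k] A) T) ^ n ∈ fibreIdeal φ I ∧
      ∀ x ∈ I, Δ * x ∈ Ideal.span {f} := by
  obtain ⟨f, hf, hf0, hfI⟩ := exists_mem_map_sup_span φ hφ I hne
  obtain ⟨T, hT, hTx⟩ := exists_forall_smul_mem_span_sup φ hφ I hfg hf hfI
  have h : ∀ x ∈ I, algebraMap R (R ⊗[k] A) T * x ∈ Ideal.span {f} ⊔ fibreIdeal φ I * I := by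
    intro x hx
    rw [← Algebra.smul_def]
    exact hTx x hx
  obtain ⟨Δ, n, hΔ, hΔx⟩ := exists_mul_mem_span_singleton I hfg hf (fibreIdeal φ I) _ h
  exact ⟨f, hf, hf0, Δ, T, n, hT, hΔ, hΔx⟩

end Fermat.Agent.S25lib.Ideal
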