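/-
S25lib / Ideal / InvFP  (helper1)  --  Project L (S25), block `Ideal` (Cartier algebra), (i)

**An ideal of `A_R` with finite flat quotient is invertible, provided it is finitely presented.**
`k` a field, `A` a `k`-algebra, not finite over `k`, with `A_{κ(𝔮)}` a Dedekind domain for every
prime `𝔮` of the `k`-algebra `R`; `I ⊂ A_R = R ⊗[k] A` an ideal, finitely presented as a module,
with `A_R / I` finite and flat over `R`.  Then `I` is an invertible `A_R`-module
(`invertible_of_finitePresentation`).  In particular for Noetherian `R` and `A` of finite type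
(`invertible_of_isNoetherianRing`).  The general case is reduced to the Noetherian one in
`Ideal/Invertible.lean`.

Proof: the criterion of `Ideal/InvCrit` (a free generator at every maximal ideal `P` of `A_R`).  If
`I ⊄ P` take any `f ∈ I ∖ P`; if `I ⊆ P` put `𝔮 = P ∩ R` and take the local generator `f` of
`Ideal/LocalGen` (`Δ I ⊆ f A_R`, `Δ ≡ T ^ n` mod `I + 𝔮 A_R`, so `Δ ∉ P`), which is a
non-zero-divisor near the fibre by `Ideal/Regular`.
-/
import Mathlib
import Fermat.Agent.S25lib.Ideal.LocalGen
import Fermat.Agent.S25lib.Ideal.Regular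
import Fermat.Agent.S25lib.Ideal.InvCrit

set_option autoImplicit false
set_option linter.unusedSectionVars false

noncomputable section

namespace Fermat.Agent.S25lib.Ideal

open TensorProduct

variable {k : Type*} [Field k] {A : Type*} [CommRing A] [Algebra k A]
  {R : Type*} [CommRing R] [Algebra k R]

/-- `κ(𝔮)` is the fraction field of the image of `R` -/
theorem isFibreField_toRes (q : Ideal R) [q.IsPrime] : IsFibreField (toRes (k := k) q) := by
  intro c
  obtain ⟨x, rfl⟩ := IsLocalRing.residue_surjective (R := Localization.AtPrime q) c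
  obtain ⟨⟨r, t⟩, rfl⟩ := IsLocalization.mk'_surjective q.primeCompl x
  refine ⟨r, t.1, ?_, ?_⟩
  · rw [Ne, toRes_eq_zero_iff (k := k)]
    exact t.2
  · show IsLocalRing.residue _ (IsLocalization.mk' _ r t) *
      algebraMap R q.ResidueField t.1 = algebraMap R q.ResidueField r
    rw [IsScalarTower.algebraMap_apply R (Localization.AtPrime q) q.ResidueField,
      IsScalarTower.algebraMap_apply R (Localization.AtPrime q) q.ResidueField]
    show IsLocalRing.residue _ (IsLocalization.mk' _ r t) *
      IsLocalRing.residue _ (algebraMap R (Localization.AtPrime q) t.1) =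
      IsLocalRing.residue _ (algebraMap R (Localization.AtPrime q) r)
    rw [← map_mul, IsLocalization.mk'_spec]

/-- the fibres of `I` are non-zero: `A` is not finite over `k`, the quotient is -/
theorem map_bc_toRes_ne_bot (hA : ¬ Module.Finite k A) (q : Ideal R) [q.IsPrime]
    (I : Ideal (R ⊗[k] A)) [Module.Finite R ((R ⊗[k] A) ⧸ I)] :
    I.map (bc A (toRes q)) ≠ ⊥ := by
  intro h
  have h' : Hilb.push k A (IsScalarTower.toAlgHom k R q.ResidueField) I = ⊥ := h
  have e1 := (Hilb.pushEquiv k A (R' := q.ResidueField) I).toLinearEquiv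
  have e2 := ((Ideal.quotientEquivAlgOfEq q.ResidueField h').trans
    (AlgEquiv.quotientBot q.ResidueField (q.ResidueField ⊗[k] A))).toLinearEquiv
  have : Module.Finite q.ResidueField (q.ResidueField ⊗[k] A) :=
    Module.Finite.equiv (e1.trans e2)
  exact hA (Module.Finite.of_finite_tensorProduct_of_faithfullyFlat q.ResidueField)

/-- **an ideal of `A_R` with finite flat quotient, finitely presented as a module, is invertible** -/
theorem invertible_of_finitePresentation (hA : ¬ Module.Finite k A)
    (hD : ∀ (q : Ideal R) [q.IsPrime], IsDedekindDomain (q.ResidueField ⊗[k] A))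
    (I : Ideal (R ⊗[k] A)) [Module.FinitePresentation (R ⊗[k] A) I]
    [Module.Finite R ((R ⊗[k] A) ⧸ I)] [Module.Flat R ((R ⊗[k] A) ⧸ I)] :
    Module.Invertible (R ⊗[k] A) I := by
  have hfg : I.FG := Module.Finite.iff_fg.mp inferInstance
  refine ideal_invertible_of_forall_maximal I fun P hP => ?_
  have hPp := hP.isPrime
  by_cases hIP : I ≤ P
  · -- the point of `Spec R` under `P`
    let q : Ideal R := P.comap (algebraMap R (R ⊗[k] A))
    have hq : q.IsPrime := Ideal.comap_isPrime _ P
    have := hD q
    obtain ⟨f, hf, hf0, Δ, T, n, hT, hΔ, hΔx⟩ :=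
      exists_local_generator (toRes q) (isFibreField_toRes q) I hfg
        (map_bc_toRes_ne_bot hA q I)
    have hTq : T ∉ q := fun h => hT ((toRes_eq_zero_iff (k := k) q T).mpr h)
    have hTP : algebraMap R (R ⊗[k] A) T ∉ P := hTq
    have hfib : fibreIdeal (toRes q) I ≤ P := by
      refine sup_le hIP ?_
      have hker : RingHom.ker ((toRes (k := k) q : R →ₐ[k] q.ResidueField) : R →+* q.ResidueField)
          = q := by
        ext x
        rw [RingHom.mem_ker]
        exact toRes_eq_zero_iff (k := k) q x
      rw [hker]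
      exact Ideal.map_comap_le
    have hΔP : Δ ∉ P := by
      intro h
      have h1 : (algebraMap R (R ⊗[k] A) T) ^ n ∈ P := by
        have := P.sub_mem h (hfib hΔ)
        rwa [sub_sub_cancel] at this
      exact hTP (hPp.mem_of_pow_mem n h1)
    refine ⟨f, hf, fun x hx => ?_, fun c hc => ?_⟩
    · obtain ⟨c, hc⟩ := Ideal.mem_span_singleton'.mp (hΔx x hx)
      exact ⟨Δ, hΔP, c, hc.symm⟩
    · obtain ⟨t, ht, htc⟩ := exists_smul_eq_zero_of_mul_eq_zero q hf0 hc
      refine ⟨algebraMap R (R ⊗[k] A) t, ht, ?_⟩
      rw [← Algebra.smul_def]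
      exact htc
  · obtain ⟨f, hf, hfP⟩ := Set.not_subset.mp hIP
    refine ⟨f, hf, fun x _ => ⟨f, hfP, x, ?_⟩, fun c hc => ⟨f, hfP, ?_⟩⟩
    · ring
    · rw [mul_comm]; exact hc

/-- the Noetherian case: no finite presentation hypothesis is needed -/
theorem invertible_of_isNoetherianRing [IsNoetherianRing R] [Algebra.FiniteType k A]
    (hA : ¬ Module.Finite k A)
    (hD : ∀ (q : Ideal R) [q.IsPrime], IsDedekindDomain (q.ResidueField ⊗[k] A))
    (I : Ideal (R ⊗[k] A))
    [Module.Finite R ((R ⊗[k] A) ⧸ I)] [Module.Flat R ((R ⊗[k] A) ⧸ I)] :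
    Module.Invertible (R ⊗[k] A) I := by
  have : Algebra.FiniteType R (R ⊗[k] A) := inferInstance
  have : IsNoetherianRing (R ⊗[k] A) := Algebra.FiniteType.isNoetherianRing R _
  have : Module.Finite (R ⊗[k] A) I := Module.Finite.iff_fg.mpr (IsNoetherian.noetherian I)
  have : Module.FinitePresentation (R ⊗[k] A) I := Module.finitePresentation_of_finite _ _
  exact invertible_of_finitePresentation hA hD I

end Fermat.Agent.S25lib.Ideal
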