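/-
S25lib / Ideal / BaseChange  (helper1)  --  Project L (S25), block `Ideal` (Cartier algebra), (i)

**Base change of an ideal of `A_H = H ⊗[k] A` with `H`-flat quotient** (`k` any commutative ring).
For `χ : H →ₐ[k] R` and `I ⊂ A_H` with `A_H / I` flat over `H` the natural maps
`R ⊗[H] I → A_R` and `A_R ⊗[A_H] I → A_R` are injective with image `I·A_R = Hilb.push k A χ I`
(`Tor₁^H (A_H / I, R) = 0`).  Consequences (`χ` arbitrary):
* `tensorEquivPush`  : `R ⊗[H] I ≃ₗ[R] I·A_R`  (for `[Algebra H R]`);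
* `invertible_push`  : `Module.Invertible A_H I → Module.Invertible A_R (I·A_R)`;
* `finitePresentation_push` : `Module.FinitePresentation A_H I → Module.FinitePresentation A_R (I·A_R)`.
-/
import Mathlib
import Fermat.Agent.S25lib.Hilb.Push

set_option autoImplicit false
set_option linter.unusedSectionVars false

noncomputable section

namespace Fermat.Agent.S25lib.Ideal

open TensorProduct

universe u v w₁ w₂

variable (k : Type u) [CommRing k] (A : Type v) [CommRing A] [Algebra k A]
  {H : Type w₁} [CommRing H] [Algebra k H] {R : Type w₂} [CommRing R] [Algebra k R]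

section Tower

variable [Algebra H R] [IsScalarTower k H R]

/-- `A_R` as an `A_H`-algebra (local instance of this file) -/
@[reducible] def bcAlgebra : Algebra (H ⊗[k] A) (R ⊗[k] A) :=
  (Hilb.bc k A (IsScalarTower.toAlgHom k H R)).toRingHom.toAlgebra

attribute [local instance] bcAlgebra

theorem bcAlgebra_algebraMap (x : H ⊗[k] A) :
    algebraMap (H ⊗[k] A) (R ⊗[k] A) x = Hilb.bc k A (IsScalarTower.toAlgHom k H R) x := rfl

theorem bcTower : IsScalarTower H (H ⊗[k] A) (R ⊗[k] A) := by
  refine IsScalarTower.of_algebraMap_eq fun h => ?_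
  show (algebraMap H R h) ⊗ₜ[k] (1 : A) =
    Hilb.bc k A (IsScalarTower.toAlgHom k H R) (h ⊗ₜ[k] (1 : A))
  rw [Hilb.bc_tmul]
  rfl

attribute [local instance] bcTower

theorem bcPushout : Algebra.IsPushout H R (H ⊗[k] A) (R ⊗[k] A) := by
  apply Algebra.IsPushout.tensorProduct_tensorProduct k A H R
  ext a
  show Hilb.bc k A (IsScalarTower.toAlgHom k H R) ((1 : H) ⊗ₜ[k] a) = (1 : R) ⊗ₜ[k] a
  rw [Hilb.bc_tmul, map_one]

attribute [local instance] bcPushout

variable (I : Ideal (H ⊗[k] A))

/-- the natural map `R ⊗[H] I → A_R` -/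
def tensorToBC : R ⊗[H] I →ₗ[R] R ⊗[k] A :=
  (Algebra.TensorProduct.cancelBaseChange k H R R A).toLinearMap ∘ₗ
    ((Submodule.subtype I).restrictScalars H).baseChange R

theorem tensorToBC_tmul (r : R) (y : I) :
    tensorToBC k A I (r ⊗ₜ[H] y) = r • Hilb.bc k A (IsScalarTower.toAlgHom k H R) y.1 := by
  show Algebra.TensorProduct.cancelBaseChange k H R R A (r ⊗ₜ[H] y.1) = _
  have h2 : r ⊗ₜ[H] y.1 = r • ((1 : R) ⊗ₜ[H] y.1) := by
    rw [TensorProduct.smul_tmul', smul_eq_mul, mul_one]
  rw [h2, map_smul, Hilb.cancelBaseChange_one_tmul]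

theorem tensorToBC_injective [Module.Flat H ((H ⊗[k] A) ⧸ I)] :
    Function.Injective (tensorToBC (R := R) k A I) := by
  have h1 : Function.Injective (((Submodule.subtype I).restrictScalars H).lTensor R) := by
    refine LinearMap.lTensor_injective_of_exact_of_flat
      ((Submodule.mkQ I).restrictScalars H) (Submodule.mkQ_surjective I)
      ((Submodule.subtype I).restrictScalars H) (Submodule.injective_subtype I) ?_ R
    intro x
    show Submodule.mkQ I x = 0 ↔ x ∈ Set.range (Submodule.subtype I)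
    rw [Submodule.mkQ_apply, Submodule.Quotient.mk_eq_zero]
    simp
  intro x y hxy
  apply h1
  exact (Algebra.TensorProduct.cancelBaseChange k H R R A).injective hxy

/-- the natural map `A_R ⊗[A_H] I → A_R` -/
def tensorToBC' : (R ⊗[k] A) ⊗[H ⊗[k] A] I →ₗ[R ⊗[k] A] R ⊗[k] A :=
  LinearMap.liftBaseChange (R ⊗[k] A)
    ((Algebra.linearMap (H ⊗[k] A) (R ⊗[k] A)) ∘ₗ Submodule.subtype I)

theorem tensorToBC'_tmul (x : R ⊗[k] A) (y : I) :
    tensorToBC' k A I (x ⊗ₜ[H ⊗[k] A] y) =
      x * Hilb.bc k A (IsScalarTower.toAlgHom k H R) y.1 := by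
  unfold tensorToBC'
  rw [LinearMap.liftBaseChange_tmul]
  rfl

theorem tensorToBC'_cancel (z : R ⊗[H] I) :
    tensorToBC' k A I ((Algebra.IsPushout.cancelBaseChange H R (H ⊗[k] A) (R ⊗[k] A) I).symm z) =
      tensorToBC k A I z := by
  induction z using TensorProduct.induction_on with
  | zero => simp
  | tmul r y =>
    rw [Algebra.IsPushout.cancelBaseChange_symm_tmul, tensorToBC'_tmul, tensorToBC_tmul,
      Algebra.smul_def]
  | add x y hx hy => simp only [map_add, hx, hy]

theorem tensorToBC'_injective [Module.Flat H ((H ⊗[k] A) ⧸ I)] :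
    Function.Injective (tensorToBC' (R := R) k A I) := by
  rw [injective_iff_map_eq_zero]
  intro t ht
  set e := Algebra.IsPushout.cancelBaseChange H R (H ⊗[k] A) (R ⊗[k] A) I with he
  have h1 : tensorToBC k A I (e t) = 0 := by
    rw [← tensorToBC'_cancel, LinearEquiv.symm_apply_apply, ht]
  have h2 : e t = 0 := by
    apply tensorToBC_injective k A I
    rw [h1, map_zero]
  exact e.map_eq_zero_iff.mp h2

theorem range_tensorToBC' :
    LinearMap.range (tensorToBC' k A I) = Hilb.push k A (IsScalarTower.toAlgHom k H R) I := by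
  apply le_antisymm
  · rintro _ ⟨t, rfl⟩
    induction t using TensorProduct.induction_on with
    | zero => rw [map_zero]; exact Ideal.zero_mem _
    | tmul x y =>
      rw [tensorToBC'_tmul]
      exact Ideal.mul_mem_left _ _ (Hilb.mem_push_of_mem k A _ y.2)
    | add x y hx hy => rw [map_add]; exact Ideal.add_mem _ hx hy
  · unfold Hilb.push
    rw [Ideal.map_le_iff_le_comap]
    intro y hy
    rw [Ideal.mem_comap]
    refine ⟨(1 : R ⊗[k] A) ⊗ₜ[H ⊗[k] A] (⟨y, hy⟩ : I), ?_⟩
    rw [tensorToBC'_tmul, one_mul]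

/-- `A_R ⊗[A_H] I ≃ I·A_R` -/
def tensorEquivPush' [Module.Flat H ((H ⊗[k] A) ⧸ I)] :
    (R ⊗[k] A) ⊗[H ⊗[k] A] I ≃ₗ[R ⊗[k] A]
      (Hilb.push k A (IsScalarTower.toAlgHom k H R) I) :=
  LinearEquiv.ofBijective
    ((tensorToBC' k A I).codRestrict _ fun t => by
      rw [← range_tensorToBC']; exact ⟨t, rfl⟩)
    ⟨fun x y hxy => tensorToBC'_injective k A I (congrArg Subtype.val hxy),
     fun z => by
      have hz : z.1 ∈ LinearMap.range (tensorToBC' k A I) := by
        rw [range_tensorToBC']; exact z.2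
      obtain ⟨t, ht⟩ := hz
      exact ⟨t, Subtype.ext ht⟩⟩

theorem tensorEquivPush'_tmul [Module.Flat H ((H ⊗[k] A) ⧸ I)] (x : R ⊗[k] A) (y : I) :
    ((tensorEquivPush' k A I (x ⊗ₜ[H ⊗[k] A] y) :
      Hilb.push k A (IsScalarTower.toAlgHom k H R) I) : R ⊗[k] A) =
      x * Hilb.bc k A (IsScalarTower.toAlgHom k H R) y.1 :=
  tensorToBC'_tmul k A I x y

theorem range_tensorToBC :
    LinearMap.range (tensorToBC k A I) =
      (Hilb.push k A (IsScalarTower.toAlgHom k H R) I).restrictScalars R := by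
  ext x
  rw [Submodule.restrictScalars_mem, ← range_tensorToBC']
  constructor
  · rintro ⟨z, rfl⟩
    exact ⟨_, tensorToBC'_cancel k A I z⟩
  · rintro ⟨t, rfl⟩
    refine ⟨Algebra.IsPushout.cancelBaseChange H R (H ⊗[k] A) (R ⊗[k] A) I t, ?_⟩
    rw [← tensorToBC'_cancel, LinearEquiv.symm_apply_apply]

/-- **`R ⊗[H] I ≃ I·A_R`** for an ideal `I` of `A_H` with `H`-flat quotient -/
def tensorEquivPush [Module.Flat H ((H ⊗[k] A) ⧸ I)] :
    R ⊗[H] I ≃ₗ[R] (Hilb.push k A (IsScalarTower.toAlgHom k H R) I) :=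
  LinearEquiv.ofBijective
    ((tensorToBC k A I).codRestrict
      ((Hilb.push k A (IsScalarTower.toAlgHom k H R) I).restrictScalars R) fun t => by
      rw [← range_tensorToBC]; exact ⟨t, rfl⟩)
    ⟨fun x y hxy => tensorToBC_injective k A I (congrArg Subtype.val hxy),
     fun z => by
      have hz : z.1 ∈ LinearMap.range (tensorToBC k A I) := by
        rw [range_tensorToBC]; exact z.2
      obtain ⟨t, ht⟩ := hz
      exact ⟨t, Subtype.ext ht⟩⟩

theorem tensorEquivPush_tmul [Module.Flat H ((H ⊗[k] A) ⧸ I)] (r : R) (y : I) :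
    ((tensorEquivPush k A I (r ⊗ₜ[H] y) :
      Hilb.push k A (IsScalarTower.toAlgHom k H R) I) : R ⊗[k] A) =
      r • Hilb.bc k A (IsScalarTower.toAlgHom k H R) y.1 :=
  tensorToBC_tmul k A I r y

theorem invertible_push_of_tower [Module.Flat H ((H ⊗[k] A) ⧸ I)]
    [Module.Invertible (H ⊗[k] A) I] :
    Module.Invertible (R ⊗[k] A) (Hilb.push k A (IsScalarTower.toAlgHom k H R) I) :=
  Module.Invertible.congr (tensorEquivPush' k A I)

theorem finitePresentation_push_of_tower [Module.Flat H ((H ⊗[k] A) ⧸ I)]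
    [Module.FinitePresentation (H ⊗[k] A) I] :
    Module.FinitePresentation (R ⊗[k] A) (Hilb.push k A (IsScalarTower.toAlgHom k H R) I) :=
  Module.FinitePresentation.of_equiv (tensorEquivPush' k A I)

end Tower

section General

variable {k A}

/-- **base change of an invertible ideal with flat quotient** -/
theorem invertible_push (χ : H →ₐ[k] R) (I : Ideal (H ⊗[k] A))
    [Module.Flat H ((H ⊗[k] A) ⧸ I)] [Module.Invertible (H ⊗[k] A) I] :
    Module.Invertible (R ⊗[k] A) (Hilb.push k A χ I) := by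
  let _ : Algebra H R := χ.toRingHom.toAlgebra
  have : IsScalarTower k H R := IsScalarTower.of_algebraMap_eq' χ.comp_algebraMap.symm
  have hχ : IsScalarTower.toAlgHom k H R = χ := AlgHom.ext fun _ => rfl
  rw [← hχ]
  exact invertible_push_of_tower k A I

/-- **base change of a finitely presented ideal with flat quotient** -/
theorem finitePresentation_push (χ : H →ₐ[k] R) (I : Ideal (H ⊗[k] A))
    [Module.Flat H ((H ⊗[k] A) ⧸ I)] [Module.FinitePresentation (H ⊗[k] A) I] :
    Module.FinitePresentation (R ⊗[k] A) (Hilb.push k A χ I) := by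
  let _ : Algebra H R := χ.toRingHom.toAlgebra
  have : IsScalarTower k H R := IsScalarTower.of_algebraMap_eq' χ.comp_algebraMap.symm
  have hχ : IsScalarTower.toAlgHom k H R = χ := AlgHom.ext fun _ => rfl
  rw [← hχ]
  exact finitePresentation_push_of_tower k A I

end General

end Fermat.Agent.S25lib.Ideal
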