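/-
S25lib / Ideal / LocFP  (helper1)  --  Project L (S25), block `Ideal` (Cartier algebra), (i)

**A point of the functor of ideals is a finitely presented module** (`k` a field, `A` of finite
type over `k`, `R` ANY `k`-algebra).
* `finitePresentation_of_isFramed` : a `β`-framed ideal `I ⊂ A_R` is the base change of the universal
  ideal over helper5's `Hilb.H k β`, a Noetherian ring; base change preserves finite presentation
  because the quotient is flat (`Ideal/BaseChange`).
* `isLocalization_away_bc`, `isLocalizedModule_locMap` : `A_{R_f}` is the localisation of `A_R` at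
  `f`, and `I·A_{R_f}` that of `I` (flat quotient).
* `finitePresentation_of_isPt` : the general case by Zariski gluing over `Spec R`
  (`Hilb.exists_mem_framedLocus`: the framed loci cover).
-/
import Mathlib
import Fermat.Agent.S25lib.Ideal.BaseChange
import Fermat.Agent.S25lib.Hilb.Local
import Fermat.Agent.S25lib.Hilb.Rep

set_option autoImplicit false
set_option linter.unusedSectionVars false

noncomputable section

namespace Fermat.Agent.S25lib.Ideal

open TensorProduct

universe u v w

section Framed

variable {k : Type u} [Field k] {A : Type v} [CommRing A] [Algebra k A] {g : ℕ}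
  {R : Type w} [CommRing R] [Algebra k R]

theorem finitePresentation_of_isFramed [Algebra.FiniteType k A] {β : Fin g → A}
    {I : Ideal (R ⊗[k] A)} (h : Hilb.IsFramed β I) :
    Module.FinitePresentation (R ⊗[k] A) I := by
  have hH : Algebra.FiniteType k (Hilb.H k β) := Hilb.H.finiteType k β
  have : IsNoetherianRing (Hilb.H k β) := Algebra.FiniteType.isNoetherianRing k _
  have : Algebra.FiniteType (Hilb.H k β) (Hilb.H k β ⊗[k] A) := inferInstance
  have : IsNoetherianRing (Hilb.H k β ⊗[k] A) :=
    Algebra.FiniteType.isNoetherianRing (Hilb.H k β) _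
  have : Module.Finite (Hilb.H k β ⊗[k] A) (Hilb.univIdeal k β) :=
    Module.Finite.iff_fg.mpr (IsNoetherian.noetherian _)
  have : Module.FinitePresentation (Hilb.H k β ⊗[k] A) (Hilb.univIdeal k β) :=
    Module.finitePresentation_of_finite _ _
  have : Module.Flat (Hilb.H k β) ((Hilb.H k β ⊗[k] A) ⧸ Hilb.univIdeal k β) :=
    (Hilb.univIdeal_isFramed k β).isPt.flat
  have hI : I = Hilb.push k A (Hilb.framedEquivHom k β ⟨I, h⟩) (Hilb.univIdeal k β) := by
    have := Hilb.framedEquivHom_symm_val k β (Hilb.framedEquivHom k β ⟨I, h⟩)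
    rw [Equiv.symm_apply_apply] at this
    exact this
  have key := finitePresentation_push (Hilb.framedEquivHom k β ⟨I, h⟩) (Hilb.univIdeal k β)
  rw [← hI] at key
  exact key

end Framed

section Loc

variable (k : Type u) [CommRing k] (A : Type v) [CommRing A] [Algebra k A]
  {R : Type w} [CommRing R] [Algebra k R] (f : R)

attribute [local instance] bcAlgebra bcTower bcPushout

/-- `A_{R_f}` is the localisation of `A_R` at `f` -/
theorem isLocalization_away_bc :
    IsLocalization.Away (algebraMap R (R ⊗[k] A) f) (Localization.Away f ⊗[k] A) := by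
  have h1 : Algebra.IsPushout R (R ⊗[k] A) (Localization.Away f) (Localization.Away f ⊗[k] A) :=
    (bcPushout k A (H := R) (R := Localization.Away f)).symm
  have h2 := (Algebra.isLocalization_iff_isPushout (Submonoid.powers f)
    (Localization.Away f)).mpr h1
  rwa [Algebra.algebraMapSubmonoid_powers] at h2

variable (I : Ideal (R ⊗[k] A))

/-- the localisation map `I → I·A_{R_f}` -/
def locMap : I →ₗ[R ⊗[k] A]
    (Hilb.push k A (IsScalarTower.toAlgHom k R (Localization.Away f)) I) where
  toFun x := ⟨Hilb.bc k A (IsScalarTower.toAlgHom k R (Localization.Away f)) x.1,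
    Hilb.mem_push_of_mem k A _ x.2⟩
  map_add' x y := Subtype.ext (map_add _ _ _)
  map_smul' s x := by
    apply Subtype.ext
    show Hilb.bc k A (IsScalarTower.toAlgHom k R (Localization.Away f)) (s * x.1) =
      s • Hilb.bc k A (IsScalarTower.toAlgHom k R (Localization.Away f)) x.1
    rw [map_mul, Algebra.smul_def]
    rfl

theorem isLocalizedModule_locMap [Module.Flat R ((R ⊗[k] A) ⧸ I)] :
    IsLocalizedModule (Submonoid.powers (algebraMap R (R ⊗[k] A) f)) (locMap k A f I) := by
  have := isLocalization_away_bc k A f
  rw [isLocalizedModule_iff_isBaseChange (Submonoid.powers (algebraMap R (R ⊗[k] A) f))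
    (Localization.Away f ⊗[k] A)]
  refine IsBaseChange.of_equiv (tensorEquivPush' k A I) fun x => ?_
  apply Subtype.ext
  rw [tensorEquivPush'_tmul, one_mul]
  rfl

/-- **finite presentation of `I` is local on `Spec R`** (flat quotient) -/
theorem finitePresentation_of_forall_prime [Module.Flat R ((R ⊗[k] A) ⧸ I)]
    (h : ∀ p : Ideal R, p.IsPrime → ∃ f : R, f ∉ p ∧
      Module.FinitePresentation (Localization.Away f ⊗[k] A)
        (Hilb.push k A (IsScalarTower.toAlgHom k R (Localization.Away f)) I)) :
    Module.FinitePresentation (R ⊗[k] A) I := by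
  classical
  let s : Set (R ⊗[k] A) := {x | ∃ f : R, x = algebraMap R (R ⊗[k] A) f ∧
    Module.FinitePresentation (Localization.Away f ⊗[k] A)
      (Hilb.push k A (IsScalarTower.toAlgHom k R (Localization.Away f)) I)}
  have hs : Ideal.span s = ⊤ := by
    by_contra hne
    obtain ⟨M, hM, hle⟩ := Ideal.exists_le_maximal _ hne
    have hMp := hM.isPrime
    obtain ⟨f, hf, hfp⟩ := h (M.comap (algebraMap R (R ⊗[k] A))) (Ideal.comap_isPrime _ M)
    exact hf (hle (Ideal.subset_span ⟨f, rfl, hfp⟩))
  let fg : s → R := fun x => x.2.choose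
  have hfg : ∀ x : s, x.1 = algebraMap R (R ⊗[k] A) (fg x) := fun x => x.2.choose_spec.1
  have hfp : ∀ x : s, Module.FinitePresentation (Localization.Away (fg x) ⊗[k] A)
      (Hilb.push k A (IsScalarTower.toAlgHom k R (Localization.Away (fg x))) I) :=
    fun x => x.2.choose_spec.2
  have hloc : ∀ x : s, IsLocalization.Away x.1 (Localization.Away (fg x) ⊗[k] A) := by
    intro x
    have := isLocalization_away_bc k A (fg x)
    rwa [← hfg x] at this
  have hlocM : ∀ x : s, IsLocalizedModule (Submonoid.powers x.1) (locMap k A (fg x) I) := by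
    intro x
    have := isLocalizedModule_locMap k A (fg x) I
    rwa [← hfg x] at this
  exact Module.FinitePresentation.of_localizationSpan' s hs
    (Rₚ := fun x : s => Localization.Away (fg x) ⊗[k] A)
    (Mₚ := fun x : s => Hilb.push k A (IsScalarTower.toAlgHom k R (Localization.Away (fg x))) I)
    (fun x => locMap k A (fg x) I) hfp

end Loc

section Pt

variable {k : Type u} [Field k] {A : Type v} [CommRing A] [Algebra k A] {g : ℕ}
  {R : Type w} [CommRing R] [Algebra k R]

/-- **a point of the functor of ideals is finitely presented as a module** -/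
theorem finitePresentation_of_isPt [Algebra.FiniteType k A] {I : Ideal (R ⊗[k] A)}
    (h : Hilb.IsPt g I) : Module.FinitePresentation (R ⊗[k] A) I := by
  have := h.flat
  refine finitePresentation_of_forall_prime k A I fun p hp => ?_
  obtain ⟨β, -, hβ⟩ := Hilb.exists_mem_framedLocus h (B := Set.univ) (by simp) ⟨p, hp⟩
  obtain ⟨f, hf, hframed⟩ := (Hilb.mem_framedLocus_iff h ⟨p, hp⟩).mp hβ
  exact ⟨f, hf, finitePresentation_of_isFramed hframed⟩

end Pt

end Fermat.Agent.S25lib.Ideal
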