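/-
S25lib / Ideal / Invertible  (helper1)  --  Project L (S25), block `Ideal` (Cartier algebra), (i)

**MAIN THEOREM (i).**  `k` a field, `A` a `k`-algebra of finite type, not finite over `k`, `R` ANY
`k`-algebra such that `κ(𝔮) ⊗[k] A` is a Dedekind domain for every prime `𝔮` of `R`.  Then every
point `I` of the functor of ideals (`Hilb.IsPt g I`: `A_R / I` finite flat of rank `g`) is an
INVERTIBLE `A_R`-module (`invertible_of_isPt`), and so is every `I·A_{R'}` (`invertible_push_of_isPt`,
where moreover `R' ⊗[R] I ≃ I·A_{R'}`, `Ideal/BaseChange: tensorEquivPush`).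
-/
import Mathlib
import Fermat.Agent.S25lib.Ideal.InvFP
import Fermat.Agent.S25lib.Ideal.LocFP

set_option autoImplicit false
set_option linter.unusedSectionVars false

noncomputable section

namespace Fermat.Agent.S25lib.Ideal

open TensorProduct

universe u v w w'

variable {k : Type u} [Field k] {A : Type v} [CommRing A] [Algebra k A] {g : ℕ}
  {R : Type w} [CommRing R] [Algebra k R]

/-- **(i)**: a point of the functor of ideals of a curve is an invertible module -/
theorem invertible_of_isPt [Algebra.FiniteType k A] (hA : ¬ Module.Finite k A)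
    (hD : ∀ (q : Ideal R) [q.IsPrime], IsDedekindDomain (q.ResidueField ⊗[k] A))
    {I : Ideal (R ⊗[k] A)} (h : Hilb.IsPt g I) : Module.Invertible (R ⊗[k] A) I := by
  have := h.finite
  have := h.flat
  have := finitePresentation_of_isPt h
  exact invertible_of_finitePresentation hA hD I

/-- the same with the hypothesis on `A` in the form "geometrically Dedekind" -/
theorem invertible_of_isPt' [Algebra.FiniteType k A] (hA : ¬ Module.Finite k A)
    (hD : ∀ (K : Type w) [Field K] [Algebra k K], IsDedekindDomain (K ⊗[k] A))
    {I : Ideal (R ⊗[k] A)} (h : Hilb.IsPt g I) : Module.Invertible (R ⊗[k] A) I :=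
  invertible_of_isPt hA (fun q _ => hD q.ResidueField) h

/-- framed ideals are invertible -/
theorem invertible_of_isFramed [Algebra.FiniteType k A] (hA : ¬ Module.Finite k A)
    (hD : ∀ (K : Type w) [Field K] [Algebra k K], IsDedekindDomain (K ⊗[k] A))
    {β : Fin g → A} {I : Ideal (R ⊗[k] A)} (h : Hilb.IsFramed β I) :
    Module.Invertible (R ⊗[k] A) I :=
  invertible_of_isPt' hA hD h.isPt

/-- base change: `I·A_{R'}` is invertible as well -/
theorem invertible_push_of_isPt [Algebra.FiniteType k A] (hA : ¬ Module.Finite k A)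
    {R' : Type w'} [CommRing R'] [Algebra k R']
    (hD : ∀ (K : Type w') [Field K] [Algebra k K], IsDedekindDomain (K ⊗[k] A))
    {I : Ideal (R ⊗[k] A)} (h : Hilb.IsPt g I) (φ : R →ₐ[k] R') :
    Module.Invertible (R' ⊗[k] A) (Hilb.push k A φ I) :=
  invertible_of_isPt' hA hD (h.push φ)

end Fermat.Agent.S25lib.Ideal
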