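/-
S25lib / Ideal / LiftIdeal  (helper1)  --  Project L (S25), block `Ideal` (Cartier algebra), (iii)

**Lifting a projective ideal along a square-zero extension** (pure commutative algebra).
`π : S → S₀` a surjective ring homomorphism whose kernel `𝔫` has square zero, `I₀ ⊂ S₀` an ideal
which is a finitely generated projective `S₀`-module.  Then there is an ideal `I ⊂ S` with
`π(I) = I₀` and `I ∩ 𝔫 ⊆ 𝔫 I` (i.e. `Tor₁ (S/I, S₀) = 0`: `I` is a deformation of `I₀`).

Proof: a dual basis of `I₀` gives an idempotent matrix `E₀` with `m⁰ E₀ = m⁰` (`m⁰` the generators);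
lift `E₀` to an idempotent `E` (Mathlib: idempotents lift modulo nil ideals, in the matrix ring) and
take `I` generated by `m E` for any lift `m` of `m⁰`.
-/
import Mathlib

set_option autoImplicit false
set_option linter.unusedSectionVars false

noncomputable section

namespace Fermat.Agent.S25lib.Ideal

open Matrix

variable {S S₀ : Type*} [CommRing S] [CommRing S₀]

theorem exists_ideal_lift (π : S →+* S₀) (hπ : Function.Surjective π)
    (hsq : ∀ x ∈ RingHom.ker π, ∀ y ∈ RingHom.ker π, x * y = 0)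
    (I₀ : Ideal S₀) [Module.Finite S₀ I₀] [Module.Projective S₀ I₀] :
    ∃ I : Ideal S, I.map π = I₀ ∧ I ⊓ RingHom.ker π ≤ RingHom.ker π * I := by
  classical
  obtain ⟨n, f, hf⟩ := Module.Finite.exists_fin' S₀ I₀
  obtain ⟨g, hg⟩ := Module.projective_lifting_property f LinearMap.id hf
  have hfg : ∀ x : I₀, f (g x) = x := fun x => LinearMap.congr_fun hg x
  -- the generators and the idempotent
  let m₀ : Fin n → S₀ := fun i => (f (Pi.single i 1) : S₀)
  let G : (Fin n → S₀) →ₗ[S₀] (Fin n → S₀) := g ∘ₗ f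
  let E₀ : Matrix (Fin n) (Fin n) S₀ := LinearMap.toMatrix' G
  have hGG : G ∘ₗ G = G := by
    refine LinearMap.ext fun v => ?_
    show g (f (g (f v))) = g (f v)
    rw [hfg]
  have hE₀ : IsIdempotentElem E₀ := by
    show E₀ * E₀ = E₀
    rw [← LinearMap.toMatrix'_comp, hGG]
  have hE₀_apply : ∀ i j, E₀ i j = g (f (Pi.single j 1)) i := by
    intro i j
    simp [E₀, G, LinearMap.toMatrix'_apply]
  -- `f v = ∑ v j • f (e_j)`
  have hfsum : ∀ v : Fin n → S₀, ((f v : I₀) : S₀) = ∑ j, v j * m₀ j := by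
    intro v
    have hv : v = ∑ j, v j • (Pi.single j 1 : Fin n → S₀) := by
      ext i
      simp [Finset.sum_apply, Pi.single_apply]
    conv_lhs => rw [hv, map_sum]
    rw [Submodule.coe_sum]
    refine Finset.sum_congr rfl fun j _ => ?_
    rw [map_smul]
    rfl
  -- relations among the generators are killed by `E₀`
  have hrel : ∀ a : Fin n → S₀, ∑ j, a j * m₀ j = 0 → E₀ *ᵥ a = 0 := by
    intro a ha
    have h0 : f a = 0 := by
      apply Subtype.ext
      rw [hfsum a, ha]
      rfl
    have h1 : E₀ *ᵥ a = G a := by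
      rw [← LinearMap.toMatrix'_mulVec]
    rw [h1]
    show g (f a) = 0
    rw [h0, map_zero]
  -- `m₀ E₀ = m₀`
  have hm₀ : m₀ ᵥ* E₀ = m₀ := by
    funext j
    show ∑ i, m₀ i * E₀ i j = m₀ j
    have := hfsum (g (f (Pi.single j 1)))
    rw [hfg] at this
    rw [show m₀ j = ((f (Pi.single j 1) : I₀) : S₀) from rfl, this]
    refine Finset.sum_congr rfl fun i _ => ?_
    rw [hE₀_apply, mul_comm]
  -- lift the idempotent
  have hker : ∀ x ∈ RingHom.ker (RingHom.mapMatrix π :
      Matrix (Fin n) (Fin n) S →+* Matrix (Fin n) (Fin n) S₀), IsNilpotent x := by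
    intro x hx
    have hx' : ∀ i j, x i j ∈ RingHom.ker π := by
      intro i j
      rw [RingHom.mem_ker]
      have := Matrix.ext_iff.mpr ((RingHom.mem_ker).mp hx) i j
      rwa [RingHom.mapMatrix_apply, Matrix.map_apply, Matrix.zero_apply] at this
    refine ⟨2, ?_⟩
    rw [pow_two]
    ext i j
    rw [Matrix.mul_apply]
    exact Finset.sum_eq_zero fun l _ => hsq _ (hx' i l) _ (hx' l j)
  have hrange : E₀ ∈ (RingHom.mapMatrix π :
      Matrix (Fin n) (Fin n) S →+* Matrix (Fin n) (Fin n) S₀).range := by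
    refine ⟨Matrix.of fun i j => (hπ (E₀ i j)).choose, ?_⟩
    ext i j
    simp only [RingHom.mapMatrix_apply, Matrix.map_apply, Matrix.of_apply]
    exact (hπ (E₀ i j)).choose_spec
  obtain ⟨E, hE, hEmap⟩ := exists_isIdempotentElem_eq_of_ker_isNilpotent _ hker E₀ hrange hE₀
  have hEπ : ∀ i j, π (E i j) = E₀ i j := by
    intro i j
    have := Matrix.ext_iff.mpr hEmap i j
    rwa [RingHom.mapMatrix_apply, Matrix.map_apply] at this
  -- lift the generators
  let m : Fin n → S := fun i => (hπ (m₀ i)).choose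
  have hm : ∀ i, π (m i) = m₀ i := fun i => (hπ (m₀ i)).choose_spec
  let m' : Fin n → S := m ᵥ* E
  have hm'π : ∀ j, π (m' j) = m₀ j := by
    intro j
    show π (∑ i, m i * E i j) = m₀ j
    rw [map_sum]
    simp only [map_mul, hm, hEπ]
    exact congrFun hm₀ j
  have hm'E : m' ᵥ* E = m' := by
    show (m ᵥ* E) ᵥ* E = m ᵥ* E
    rw [Matrix.vecMul_vecMul, hE.eq]
  refine ⟨Ideal.span (Set.range m'), ?_, ?_⟩
  · -- the image is `I₀`
    rw [Ideal.map_span]
    apply le_antisymm
    · rw [Ideal.span_le]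
      rintro _ ⟨_, ⟨j, rfl⟩, rfl⟩
      rw [hm'π]
      exact (f (Pi.single j 1)).2
    · intro x hx
      have := hfsum (g ⟨x, hx⟩)
      rw [hfg] at this
      change x = _ at this
      rw [this]
      refine Ideal.sum_mem _ fun j _ => Ideal.mul_mem_left _ _ (Ideal.subset_span ?_)
      exact ⟨m' j, ⟨j, rfl⟩, hm'π j⟩
  · -- the Tor-condition
    rintro x ⟨hxI, hxker⟩
    obtain ⟨a, rfl⟩ := Ideal.mem_span_range_iff_exists_fun.mp hxI
    have h0 : ∑ j, (fun j => π (a j)) j * m₀ j = 0 := by
      have := (RingHom.mem_ker).mp hxker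
      rw [map_sum] at this
      simpa only [map_mul, hm'π] using this
    have h1 := hrel _ h0
    have h2 : ∀ i, ∑ j, E i j * a j ∈ RingHom.ker π := by
      intro i
      rw [RingHom.mem_ker, map_sum]
      have : (E₀ *ᵥ fun j => π (a j)) i = 0 := by rw [h1]; rfl
      rw [Matrix.mulVec, dotProduct] at this
      simpa only [map_mul, hEπ] using this
    have h3 : ∑ j, a j * m' j = ∑ i, (∑ j, E i j * a j) * m' i := by
      have : ∀ j, m' j = ∑ i, m' i * E i j := fun j => (congrFun hm'E j).symm
      calc ∑ j, a j * m' j = ∑ j, a j * ∑ i, m' i * E i j := by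
            refine Finset.sum_congr rfl fun j _ => ?_
            rw [← this j]
        _ = ∑ j, ∑ i, (E i j * a j) * m' i := by
            refine Finset.sum_congr rfl fun j _ => ?_
            rw [Finset.mul_sum]
            refine Finset.sum_congr rfl fun i _ => ?_
            ring
        _ = ∑ i, ∑ j, (E i j * a j) * m' i := Finset.sum_comm
        _ = ∑ i, (∑ j, E i j * a j) * m' i := by
            refine Finset.sum_congr rfl fun i _ => ?_
            rw [Finset.sum_mul]
    rw [h3]
    exact Ideal.sum_mem _ fun i _ =>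
      Ideal.mul_mem_mul (h2 i) (Ideal.subset_span ⟨i, rfl⟩)

end Fermat.Agent.S25lib.Ideal
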