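/-
S25lib / Ideal / Lift  (helper1)  --  Project L (S25), block `Ideal` (Cartier algebra), (iii)

**Square-zero lifting of framed ideals = formal smoothness of the charts `Hilb.H k β` of the
functor of ideals of a curve.**  `k` a field, `A` of finite type over `k`, not finite, geometrically
Dedekind.  `B` a `k`-algebra, `N ⊂ B` an ideal with `N ^ 2 = ⊥`, `I₀ ⊂ A_{B/N}` a `β`-framed ideal.
Then there is a `β`-framed ideal `I ⊂ A_B` with `I·A_{B/N} = I₀` (`exists_isFramed_lift`), hence
`Algebra.FormallySmooth k (Hilb.H k β)` and `Algebra.Smooth k (Hilb.H k β)`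
(`formallySmooth_H`, `smooth_H`; helper5's `Hilb/Smooth`).

Proof: `I₀` is an invertible, hence finitely generated projective, `A_{B/N}`-module (`Ideal/Invertible`);
`Ideal/LiftIdeal` lifts it to `I ⊂ A_B` with `I ∩ N A_B = N I`; then `β` frames `I` by the nilpotent
Nakayama lemma (surjectivity) and a `B`-linear lift of the coordinate map of `I₀` (injectivity).
-/
import Mathlib
import Fermat.Agent.S25lib.Ideal.Invertible
import Fermat.Agent.S25lib.Ideal.LiftIdeal
import Fermat.Agent.S25lib.Hilb.Smooth

set_option autoImplicit false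
set_option linter.unusedSectionVars false

noncomputable section

namespace Fermat.Agent.S25lib.Ideal

open TensorProduct

universe u v w

variable {k : Type u} [Field k] {A : Type v} [CommRing A] [Algebra k A] {g : ℕ}

section Ker

variable {R : Type*} [CommRing R] [Algebra k R] {R' : Type*} [CommRing R'] [Algebra k R']

/-- the kernel of `A_R → A_{R'}` is `(ker φ) A_R` (`k` a field) -/
theorem mem_ker_bc_iff' (φ : R →ₐ[k] R') (x : R ⊗[k] A) :
    Hilb.bc k A φ x = 0 ↔
      x ∈ (RingHom.ker (φ : R →+* R')) • (⊤ : Submodule R (R ⊗[k] A)) := by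
  classical
  let b := Module.Basis.ofVectorSpace k A
  let bR := Algebra.TensorProduct.basis R b
  let bK := Algebra.TensorProduct.basis R' b
  have hrepr : ∀ y : R ⊗[k] A, ∀ i, bK.repr (Hilb.bc k A φ y) i = φ (bR.repr y i) := by
    intro y i
    induction y using TensorProduct.induction_on with
    | zero => simp
    | tmul c a =>
      rw [Hilb.bc_tmul, Algebra.TensorProduct.basis_repr_tmul,
        Algebra.TensorProduct.basis_repr_tmul]
      simp only [Finsupp.smul_apply, Finsupp.mapRange_apply, smul_eq_mul, map_mul]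
      congr 1
      exact (φ.commutes _).symm
    | add y y' hy hy' =>
      rw [map_add, map_add, map_add, Finsupp.add_apply, Finsupp.add_apply, hy, hy', map_add]
  constructor
  · intro hx
    have hcoord : ∀ i, bR.repr x i ∈ RingHom.ker (φ : R →+* R') := by
      intro i
      rw [RingHom.mem_ker]
      have := hrepr x i
      rw [hx, map_zero, Finsupp.zero_apply] at this
      exact this.symm
    rw [← bR.linearCombination_repr x, Finsupp.linearCombination_apply]
    exact Submodule.sum_mem _ fun i _ =>
      Submodule.smul_mem_smul (hcoord i) Submodule.mem_top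
  · intro hx
    refine Submodule.smul_induction_on hx ?_ ?_
    · intro r hr y _
      rw [Hilb.bc_smul]
      have hr' : φ r = 0 := hr
      rw [hr', zero_smul]
    · intro y y' hy hy'
      rw [map_add, hy, hy', add_zero]

end Ker

section Lift

variable (β : Fin g → A) {B : Type w} [CommRing B] [Algebra k B] (N : Ideal B)

/-- the reduction `A_B → A_{B/N}` -/
abbrev red (k : Type u) [Field k] (A : Type v) [CommRing A] [Algebra k A] {B : Type w} [CommRing B]
    [Algebra k B] (N : Ideal B) : B ⊗[k] A →ₐ[k] (B ⧸ N) ⊗[k] A :=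
  Hilb.bc k A (Ideal.Quotient.mkₐ k N)

theorem red_surjective : Function.Surjective (red k A N) := by
  intro y
  induction y using TensorProduct.induction_on with
  | zero => exact ⟨0, map_zero _⟩
  | tmul c a =>
    obtain ⟨b, rfl⟩ := Ideal.Quotient.mk_surjective c
    exact ⟨b ⊗ₜ[k] a, Hilb.bc_tmul k A _ b a⟩
  | add y y' hy hy' =>
    obtain ⟨x, rfl⟩ := hy
    obtain ⟨x', rfl⟩ := hy'
    exact ⟨x + x', map_add _ _ _⟩

theorem mem_ker_red_iff (x : B ⊗[k] A) :
    red k A N x = 0 ↔ x ∈ N • (⊤ : Submodule B (B ⊗[k] A)) := by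
  rw [mem_ker_bc_iff']
  have : RingHom.ker ((Ideal.Quotient.mkₐ k N : B →ₐ[k] B ⧸ N) : B →+* B ⧸ N) = N := by
    ext b
    rw [RingHom.mem_ker]
    exact Ideal.Quotient.eq_zero_iff_mem
  rw [this]

variable {N}

theorem mul_eq_zero_of_sq (hN : N ^ 2 = ⊥) {a b : B} (ha : a ∈ N) (hb : b ∈ N) : a * b = 0 := by
  have : a * b ∈ N ^ 2 := by rw [pow_two]; exact Ideal.mul_mem_mul ha hb
  rwa [hN, Ideal.mem_bot] at this

/-- `N` kills `N A_B` -/
theorem smul_eq_zero_of_mem_smul_top (hN : N ^ 2 = ⊥) {n : B} (hn : n ∈ N) {z : B ⊗[k] A}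
    (hz : z ∈ N • (⊤ : Submodule B (B ⊗[k] A))) : n • z = 0 := by
  refine Submodule.smul_induction_on hz ?_ ?_
  · intro r hr y _
    rw [smul_smul, mul_eq_zero_of_sq hN hn hr, zero_smul]
  · intro y y' hy hy'
    rw [smul_add, hy, hy', add_zero]

theorem red_frameLift (c : Fin g → B) :
    red k A N (Hilb.frameLift (k := k) β c) =
      Hilb.frameLift (k := k) β (fun i => Ideal.Quotient.mk N (c i)) := by
  rw [Hilb.frameLift_apply', Hilb.frameLift_apply', map_sum]
  refine Finset.sum_congr rfl fun i _ => ?_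
  rw [Hilb.bc_tmul]
  rfl

/-- the `B`-linear form of the reduction -/
def redLin (N : Ideal B) : B ⊗[k] A →ₗ[B] (B ⧸ N) ⊗[k] A :=
  TensorProduct.AlgebraTensorModule.rTensor k A (Algebra.linearMap B (B ⧸ N))

theorem redLin_apply (x : B ⊗[k] A) : redLin (A := A) N x = red k A N x := by
  induction x using TensorProduct.induction_on with
  | zero => simp
  | tmul r a =>
    rw [Hilb.bc_tmul]
    rfl
  | add x y hx hy => simp only [map_add, hx, hy]

/-- **framing of a deformation**: an ideal `I ⊂ A_B` with `β`-framed reduction `I₀` and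
`I ∩ N A_B ⊆ (N A_B) I` is `β`-framed -/
theorem isFramed_of_red (hN : N ^ 2 = ⊥) {I₀ : Ideal ((B ⧸ N) ⊗[k] A)} (h₀ : Hilb.IsFramed β I₀)
    {I : Ideal (B ⊗[k] A)} (hmap : I.map (red k A N) = I₀)
    (htor : I ⊓ RingHom.ker (red k A N) ≤ RingHom.ker (red k A N) * I) :
    Hilb.IsFramed β I := by
  classical
  have hπI : ∀ y ∈ I, red k A N y ∈ I₀ := fun y hy => hmap ▸ Ideal.mem_map_of_mem _ hy
  constructor
  · -- injectivity
    rw [injective_iff_map_eq_zero]
    intro c hc
    have hcI : Hilb.frameLift β c ∈ I := Ideal.Quotient.eq_zero_iff_mem.mp hc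
    -- the coordinates lie in `N`
    have hcN : ∀ i, c i ∈ N := by
      intro i
      have h1 := hπI _ hcI
      rw [red_frameLift, ← h₀.coord_eq_zero_iff, h₀.coord_frameLift] at h1
      exact Ideal.Quotient.eq_zero_iff_mem.mp (congrFun h1 i)
    have hcker : Hilb.frameLift β c ∈ RingHom.ker (red k A N) := by
      rw [RingHom.mem_ker, red_frameLift]
      have : (fun i => Ideal.Quotient.mk N (c i)) = 0 := by
        funext i
        exact Ideal.Quotient.eq_zero_iff_mem.mpr (hcN i)
      rw [this, map_zero]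
    have hmem := htor ⟨hcI, hcker⟩
    -- a `B`-linear lift of the coordinate map
    let q : (Fin g → B) →ₗ[B] (Fin g → B ⧸ N) := (Algebra.linearMap B (B ⧸ N)).compLeft (Fin g)
    have hq : Function.Surjective q := by
      intro v
      refine ⟨fun i => (Ideal.Quotient.mk_surjective (v i)).choose, ?_⟩
      funext i
      exact (Ideal.Quotient.mk_surjective (v i)).choose_spec
    let γ : B ⊗[k] A →ₗ[B] (Fin g → B ⧸ N) := (h₀.coord.restrictScalars B) ∘ₗ redLin N
    obtain ⟨ρ, hρ⟩ := Module.projective_lifting_property q γ hq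
    have hρ' : ∀ y i, Ideal.Quotient.mk N (ρ y i) = h₀.coord (red k A N y) i := by
      intro y i
      have := congrFun (LinearMap.congr_fun hρ y) i
      rw [← redLin_apply]
      exact this
    -- `ρ` maps `I` into `N^g`
    have hρI : ∀ y ∈ I, ∀ i, ρ y i ∈ N := by
      intro y hy i
      rw [← Ideal.Quotient.eq_zero_iff_mem, hρ', (h₀.coord_eq_zero_iff).mpr (hπI y hy)]
      rfl
    -- `ρ` kills `(N A_B) I`
    have hρ0 : ∀ x ∈ RingHom.ker (red k A N) * I, ρ x = 0 := by
      intro x hx
      refine Submodule.mul_induction_on hx ?_ ?_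
      · intro z hz y hy
        have hz' : z ∈ N • (⊤ : Submodule B (B ⊗[k] A)) := (mem_ker_red_iff N z).mp hz
        refine Submodule.smul_induction_on hz' ?_ ?_
        · intro n hn w _
          rw [smul_mul_assoc, map_smul]
          funext i
          have hw : w * y ∈ I := I.mul_mem_left w hy
          show n * ρ (w * y) i = 0
          exact mul_eq_zero_of_sq hN hn (hρI _ hw i)
        · intro w w' hw hw'
          rw [add_mul, map_add, hw, hw', add_zero]
      · intro x y hx hy
        rw [map_add, hx, hy, add_zero]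
    -- but `ρ (frameLift c) = c`
    have hρc : ρ (Hilb.frameLift β c) = c := by
      rw [Hilb.frameLift_apply, map_sum]
      funext j
      rw [Finset.sum_apply]
      have hterm : ∀ i, (ρ (c i • ((1 : B) ⊗ₜ[k] β i))) j = if i = j then c i else 0 := by
        intro i
        rw [map_smul]
        show c i * ρ ((1 : B) ⊗ₜ[k] β i) j = _
        have h1 : Ideal.Quotient.mk N (ρ ((1 : B) ⊗ₜ[k] β i) j) =
            (Pi.single i 1 : Fin g → B ⧸ N) j := by
          rw [hρ', ← Hilb.frameLift_single (k := k) (R := B), red_frameLift]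
          have : (fun l => Ideal.Quotient.mk N ((Pi.single i 1 : Fin g → B) l)) =
              (Pi.single i 1 : Fin g → B ⧸ N) := by
            funext l
            by_cases hl : l = i
            · subst hl; simp
            · simp [hl]
          rw [this, h₀.coord_frameLift]
        by_cases hij : i = j
        · subst hij
          rw [if_pos rfl]
          rw [Pi.single_eq_same] at h1
          have h2 : ρ ((1 : B) ⊗ₜ[k] β i) i - 1 ∈ N := by
            rw [← Ideal.Quotient.eq_zero_iff_mem, map_sub, h1, map_one, sub_self]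
          have h3 := mul_eq_zero_of_sq hN (hcN i) h2
          rw [mul_sub, mul_one, sub_eq_zero] at h3
          exact h3
        · rw [if_neg hij]
          rw [Pi.single_apply, if_neg (Ne.symm hij)] at h1
          exact mul_eq_zero_of_sq hN (hcN i) (Ideal.Quotient.eq_zero_iff_mem.mp h1)
      simp only [hterm]
      rw [Finset.sum_ite_eq' Finset.univ j]
      simp
    rw [← hρc, hρ0 _ hmem]
  · -- surjectivity
    -- every element is congruent to a `frameLift` modulo `I + N A_B`
    have hstep : ∀ x : B ⊗[k] A, ∃ c : Fin g → B, ∃ y ∈ I,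
        x - Hilb.frameLift β c - y ∈ N • (⊤ : Submodule B (B ⊗[k] A)) := by
      intro x
      let c₀ := h₀.coord (red k A N x)
      let c : Fin g → B := fun i => (Ideal.Quotient.mk_surjective (c₀ i)).choose
      have hc : (fun i => Ideal.Quotient.mk N (c i)) = c₀ := by
        funext i
        exact (Ideal.Quotient.mk_surjective (c₀ i)).choose_spec
      have h1 : red k A N (x - Hilb.frameLift β c) ∈ I.map (red k A N) := by
        rw [hmap, map_sub, red_frameLift, hc]
        exact h₀.sub_frameLift_mem _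
      obtain ⟨y, hy, hyx⟩ := (Ideal.mem_map_iff_of_surjective (red k A N) (red_surjective (k := k) (A := A) N)).mp h1
      refine ⟨c, y, hy, ?_⟩
      rw [← mem_ker_red_iff, map_sub, hyx, sub_self]
    have hall : ∀ x : B ⊗[k] A, ∃ c : Fin g → B, x - Hilb.frameLift β c ∈ I := by
      intro x
      obtain ⟨c, y, hy, hz⟩ := hstep x
      -- the error term
      have herr : ∀ z ∈ N • (⊤ : Submodule B (B ⊗[k] A)),
          ∃ c' : Fin g → B, z - Hilb.frameLift β c' ∈ I := by
        intro z hz
        refine Submodule.smul_induction_on hz ?_ ?_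
        · intro n hn w _
          obtain ⟨c₁, y₁, hy₁, hz₁⟩ := hstep w
          refine ⟨n • c₁, ?_⟩
          have h0 := smul_eq_zero_of_mem_smul_top hN hn hz₁
          rw [smul_sub, smul_sub, sub_eq_zero] at h0
          have : n • w - Hilb.frameLift β (n • c₁) = n • y₁ := by
            rw [map_smul, h0]
          rw [this]
          exact Submodule.smul_of_tower_mem I n hy₁
        · rintro w w' ⟨c₁, h₁⟩ ⟨c₂, h₂⟩
          refine ⟨c₁ + c₂, ?_⟩
          have : w + w' - Hilb.frameLift β (c₁ + c₂) =
              (w - Hilb.frameLift β c₁) + (w' - Hilb.frameLift β c₂) := by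
            rw [map_add]; abel
          rw [this]
          exact I.add_mem h₁ h₂
      obtain ⟨c', hc'⟩ := herr _ hz
      refine ⟨c + c', ?_⟩
      have : x - Hilb.frameLift β (c + c') =
          y + (x - Hilb.frameLift β c - y - Hilb.frameLift β c') := by
        rw [map_add]; abel
      rw [this]
      exact I.add_mem hy hc'
    intro y
    obtain ⟨x, rfl⟩ := Ideal.Quotient.mk_surjective y
    obtain ⟨c, hc⟩ := hall x
    refine ⟨c, ?_⟩
    rw [Hilb.frameMap_apply]
    exact (Ideal.Quotient.eq.mpr hc).symm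

/-- **(iii) square-zero lifting of framed ideals** -/
theorem exists_isFramed_lift [Algebra.FiniteType k A] (hA : ¬ Module.Finite k A)
    (hD : ∀ (K : Type w) [Field K] [Algebra k K], IsDedekindDomain (K ⊗[k] A))
    (hN : N ^ 2 = ⊥) (I₀ : Ideal ((B ⧸ N) ⊗[k] A)) (h₀ : Hilb.IsFramed β I₀) :
    ∃ I : Ideal (B ⊗[k] A), Hilb.IsFramed β I ∧
      Hilb.push k A (Ideal.Quotient.mkₐ k N) I = I₀ := by
  have : Module.Invertible ((B ⧸ N) ⊗[k] A) I₀ := invertible_of_isFramed hA hD h₀
  have hsq : ∀ x ∈ RingHom.ker ((red k A N : B ⊗[k] A →ₐ[k] (B ⧸ N) ⊗[k] A) :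
      B ⊗[k] A →+* (B ⧸ N) ⊗[k] A), ∀ y ∈ RingHom.ker ((red k A N :
      B ⊗[k] A →ₐ[k] (B ⧸ N) ⊗[k] A) : B ⊗[k] A →+* (B ⧸ N) ⊗[k] A), x * y = 0 := by
    intro x hx y hy
    have hx' : x ∈ N • (⊤ : Submodule B (B ⊗[k] A)) := (mem_ker_red_iff N x).mp hx
    refine Submodule.smul_induction_on hx' ?_ ?_
    · intro n hn w _
      rw [smul_mul_assoc]
      apply smul_eq_zero_of_mem_smul_top hN hn
      rw [← mem_ker_red_iff, map_mul]
      have hy' : red k A N y = 0 := hy
      rw [hy', mul_zero]
    · intro w w' hw hw'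
      rw [add_mul, hw, hw', add_zero]
  obtain ⟨I, hmap, htor⟩ := exists_ideal_lift
    ((red k A N : B ⊗[k] A →ₐ[k] (B ⧸ N) ⊗[k] A) : B ⊗[k] A →+* (B ⧸ N) ⊗[k] A)
    (red_surjective N) hsq I₀
  exact ⟨I, isFramed_of_red β hN h₀ hmap htor, hmap⟩

end Lift

section Smooth

variable [Algebra.FiniteType k A] (hA : ¬ Module.Finite k A)
  (hD : ∀ (K : Type (max u v)) [Field K] [Algebra k K], IsDedekindDomain (K ⊗[k] A))
  (β : Fin g → A)

include hA hD

/-- **the charts of the functor of ideals of a curve are formally smooth** -/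
theorem formallySmooth_H : Algebra.FormallySmooth k (Hilb.H k β) :=
  Hilb.H.formallySmooth_of_lift k β fun _ _ _ _ hN I₀ h₀ =>
    exists_isFramed_lift β hA hD hN I₀ h₀

/-- **the charts of the functor of ideals of a curve are smooth** -/
theorem smooth_H : Algebra.Smooth k (Hilb.H k β) :=
  Hilb.H.smooth_of_lift k β fun _ _ _ _ hN I₀ h₀ =>
    exists_isFramed_lift β hA hD hN I₀ h₀

/-- every basic open of a chart is smooth -/
theorem smooth_H_away (h : Hilb.H k β) : Algebra.Smooth k (Localization.Away h) :=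
  Hilb.H.smooth_away_of_lift k β h fun _ _ _ _ hN I₀ h₀ _ =>
    exists_isFramed_lift β hA hD hN I₀ h₀

end Smooth

end Fermat.Agent.S25lib.Ideal
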