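/-
S25lib / Ideal / H1O  (helper1)  --  Project L (S25), brick (OD2) for helper3:
`H¹(O(-e))` over an affine base `T' ⊆ T` is free of rank `γ` (the genus).

For `P : Curve.PointChart c ε.pt`, `R = Γ(T, T')`, `S₁ = Γ(C ×_k T, U₁ × T')`, `S₁₂ = Γ(C ×_k T, D(z) × T')`,
`ρ = boxRes : S₁ →ₐ[R] S₁₂`, the module `Krich.H1 ρ (LO (kB' z T') (zUnit z T')) (-1)
  = S₁₂ ⧸ (range ρ ⊔ z · image of Γ(U₂ × T'))` is free and finite of rank `γ` over `R`:
it is the base change (helper3's `Krich.isBC_O`, through helper4's `tauEquiv`) of the `k`-level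
module `Γ(C, D(z)) ⧸ (Γ(C, U₁) + z Γ(C, U₂))`, of dimension `γ` by helper9's
`Polar.finrank_h1_pointChart`.
-/
import Fermat.Agent.S25lib.AffBC.Tau
import Fermat.Agent.S25lib.AffBC.ZAdapt
import Fermat.Agent.S25lib.Krich.Misc
import Fermat.Agent.S25lib.Polar.OfPointChart

set_option autoImplicit false

noncomputable section

universe u

open AlgebraicGeometry CategoryTheory CategoryTheory.Limits TopologicalSpace TensorProduct

namespace Fermat.Agent.S25lib.Ideal

open Fermat.Agent.S25lib Fermat.Agent.S26lib Fermat.Agent.S26lib.ProdAff Fermat.Agent.S26lib.P5a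
open scoped Fermat.Agent.S25lib.AffBC

section Res

variable {k : Type u} [Field k] {X : Scheme.{u}} (f : X ⟶ Spec (CommRingCat.of k))

/-- constants restrict to constants -/
theorem resO_constHomOpen {U V : X.Opens} (h : V ≤ U) (κ : k) :
    Mod.resO h ((constHomOpen f U).hom κ) = (constHomOpen f V).hom κ := by
  have h1 : constHomOpen f U ≫ X.presheaf.map (homOfLE h).op = constHomOpen f V := by
    unfold constHomOpen
    rw [Category.assoc, Scheme.Hom.appLE_map]
  exact congrArg (fun φ => φ.hom κ) h1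

/-- restriction of functions, as a morphism of `k`-algebras (for the structures `constHomOpen`) -/
def resAlgHom {U V : X.Opens} (h : V ≤ U) :
    letI : Algebra k Γ(X, U) := (constHomOpen f U).hom.toAlgebra
    letI : Algebra k Γ(X, V) := (constHomOpen f V).hom.toAlgebra
    Γ(X, U) →ₐ[k] Γ(X, V) :=
  letI : Algebra k Γ(X, U) := (constHomOpen f U).hom.toAlgebra
  letI : Algebra k Γ(X, V) := (constHomOpen f V).hom.toAlgebra
  { toRingHom := (X.presheaf.map (homOfLE h).op).hom
    commutes' := fun κ => resO_constHomOpen f h κ }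

theorem resAlgHom_apply {U V : X.Opens} (h : V ≤ U) (a : Γ(X, U)) :
    letI : Algebra k Γ(X, U) := (constHomOpen f U).hom.toAlgebra
    letI : Algebra k Γ(X, V) := (constHomOpen f V).hom.toAlgebra
    resAlgHom f h a = Mod.resO h a := rfl

end Res

section Unit

variable {k : Type u} [Field k] {C : Scheme.{u}} {c : C ⟶ Spec (CommRingCat.of k)} {e : C}
  (P : Curve.PointChart c e)

/-- `z`, as a unit of `Γ(C, D(z))` -/
def zUnit₀ : (Γ(C, C.basicOpen P.z))ˣ := (AffBC.isUnit_zRes P.z).unit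

theorem zUnit₀_val : ((zUnit₀ P : (Γ(C, C.basicOpen P.z))ˣ) : Γ(C, C.basicOpen P.z)) =
    AffBC.zRes P.z := rfl

end Unit

section KLevel

open Fermat.Agent.S18lib Fermat.Agent.S26lib.Weil Fermat.Agent.S26lib.Aff
  Fermat.Agent.S26lib.CechRR Fermat.Agent.S26lib.CurvePlace Fermat.Agent.S25lib.Curve AlgebraicCurve

variable {k : Type u} [Field k] [IsAlgClosed k] {C : Scheme.{u}}
  (c : C ⟶ Spec (CommRingCat.of k)) [IsProper c] [SmoothOfRelativeDimension 1 c] [IsIntegral C]
  (ε : Prod.KPt c) (P : Curve.PointChart c ε.pt)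

/-- **the genus at the `k`-level, on `D(z)`**: `Γ(C, D(z)) ⧸ (Γ(C, U₁) + z Γ(C, U₂))` is finite of
dimension `γ` over `k` -/
theorem finrank_h1O_k {γ : ℕ}
    (hF : letI := kAlgebraFF c; IsCurveOfGenus k C.functionField γ) :
    letI : Algebra k Γ(C, P.U₁) := (constHomOpen c P.U₁).hom.toAlgebra
    letI : Algebra k Γ(C, P.U₂) := (constHomOpen c P.U₂).hom.toAlgebra
    letI : Algebra k Γ(C, C.basicOpen P.z) := (constHomOpen c (C.basicOpen P.z)).hom.toAlgebra
    Module.Finite k (Krich.H1 (resAlgHom c (AffBC.ZAdapt.pointChart_le₁ P)).toLinearMap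
        (Krich.LO (resAlgHom c (C.basicOpen_le P.z)).range (zUnit₀ P)) (-1)) ∧
      Module.finrank k (Krich.H1 (resAlgHom c (AffBC.ZAdapt.pointChart_le₁ P)).toLinearMap
        (Krich.LO (resAlgHom c (C.basicOpen_le P.z)).range (zUnit₀ P)) (-1)) = γ := by
  let _ : Algebra k Γ(C, P.U₁) := (constHomOpen c P.U₁).hom.toAlgebra
  let _ : Algebra k Γ(C, P.U₂) := (constHomOpen c P.U₂).hom.toAlgebra
  let _ : Algebra k Γ(C, C.basicOpen P.z) := (constHomOpen c (C.basicOpen P.z)).hom.toAlgebra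
  let _ : Algebra k Γ(C, P.U₁ ⊓ P.U₂) := (constHomOpen c (P.U₁ ⊓ P.U₂)).hom.toAlgebra
  let e : Γ(C, P.U₁ ⊓ P.U₂) ≃ₗ[k] Γ(C, C.basicOpen P.z) :=
    LinearEquiv.ofLinearMap (resAlgHom c P.inf_eq.ge).toLinearMap
      (resAlgHom c P.inf_eq.le).toLinearMap
      (by
        ext x
        show Mod.resO P.inf_eq.ge (Mod.resO P.inf_eq.le x) = x
        rw [Mod.resO_resO, Mod.resO_self])
      (by
        ext x
        show Mod.resO P.inf_eq.le (Mod.resO P.inf_eq.ge x) = x
        rw [Mod.resO_resO, Mod.resO_self])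
  have he : ∀ x, e x = Mod.resO P.inf_eq.ge x := fun _ => rfl
  have hes : ∀ x, e.symm x = Mod.resO P.inf_eq.le x := fun _ => rfl
  set A' : Submodule k Γ(C, C.basicOpen P.z) :=
    LinearMap.range (resAlgHom c (AffBC.ZAdapt.pointChart_le₁ P)).toLinearMap with hA'def
  set B' : Submodule k Γ(C, C.basicOpen P.z) :=
    Krich.LO (resAlgHom c (C.basicOpen_le P.z)).range (zUnit₀ P) (-1) with hB'def
  have hA : ∀ x, x ∈ A'.comap e.toLinearMap ↔
      ∃ a : Γ(C, P.U₁), Mod.resO inf_le_left a = x := by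
    intro x
    rw [Submodule.mem_comap]
    constructor
    · rintro ⟨a, ha⟩
      refine ⟨a, ?_⟩
      have h1 : e.symm (e x) = x := e.symm_apply_apply x
      rw [← h1]
      show _ = e.symm (e.toLinearMap x)
      rw [← ha, hes]
      show _ = Mod.resO _ (Mod.resO _ a)
      rw [Mod.resO_resO]
    · rintro ⟨a, rfl⟩
      refine ⟨a, ?_⟩
      show Mod.resO _ a = Mod.resO _ (Mod.resO _ a)
      rw [Mod.resO_resO]
  have hB : ∀ x, x ∈ B'.comap e.toLinearMap ↔
      ∃ b : Γ(C, P.U₂), Mod.resO inf_le_right (P.z * b) = x := by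
    intro x
    rw [Submodule.mem_comap, hB'def, Krich.mem_LO_neg_one]
    constructor
    · rintro ⟨_, ⟨b, rfl⟩, hb⟩
      refine ⟨b, ?_⟩
      have h1 : e.symm (e x) = x := e.symm_apply_apply x
      rw [← h1]
      show _ = e.symm (e.toLinearMap x)
      rw [hb, hes, zUnit₀_val]
      show _ = Mod.resO _ (Mod.resO _ P.z * Mod.resO _ b)
      rw [← Mod.resO_mul, Mod.resO_resO]
    · rintro ⟨b, rfl⟩
      refine ⟨_, ⟨b, rfl⟩, ?_⟩
      rw [zUnit₀_val]
      show Mod.resO _ (Mod.resO _ (P.z * b)) = Mod.resO _ P.z * Mod.resO _ b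
      rw [← Mod.resO_mul, Mod.resO_resO]
  obtain ⟨hfin, hrank⟩ := Polar.finrank_h1_pointChart c ε P hF (A'.comap e.toLinearMap)
    (B'.comap e.toLinearMap) hA hB
  have hmap : (A'.comap e.toLinearMap ⊔ B'.comap e.toLinearMap).map e.toLinearMap = A' ⊔ B' := by
    rw [Submodule.map_sup, Submodule.map_comap_eq_of_surjective e.surjective,
      Submodule.map_comap_eq_of_surjective e.surjective]
  let e' : (Γ(C, P.U₁ ⊓ P.U₂) ⧸ (A'.comap e.toLinearMap ⊔ B'.comap e.toLinearMap)) ≃ₗ[k]
      (Γ(C, C.basicOpen P.z) ⧸ (A' ⊔ B')) :=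
    Submodule.Quotient.equiv _ _ e hmap
  exact ⟨Module.Finite.equiv e', by rw [← hrank]; exact e'.symm.finrank_eq⟩

end KLevel

section RLevel

open Fermat.Agent.S25lib.AffBC

variable {k : Type u} [Field k] {C T : Scheme.{u}} (c : C ⟶ Spec (CommRingCat.of k))
  (t : T ⟶ Spec (CommRingCat.of k))

/-- the `k`-algebra structure of the ring of a box (through `Γ(T, T')`) -/
@[reducible] def boxKAlgebra (U : C.Opens) (T' : T.Opens) :
    Algebra k Γ(pullback c t, box c t U T') :=
  ((boxφ c t U T').comp (constHomOpen t T').hom).toAlgebra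

/-- `fstφ`, as a morphism of `k`-algebras -/
def fstAlgHom (U : C.Opens) (T' : T.Opens) :
    letI : Algebra k Γ(C, U) := (constHomOpen c U).hom.toAlgebra
    letI := boxKAlgebra c t U T'
    Γ(C, U) →ₐ[k] Γ(pullback c t, box c t U T') :=
  letI : Algebra k Γ(C, U) := (constHomOpen c U).hom.toAlgebra
  letI := boxKAlgebra c t U T'
  { toRingHom := fstφ c t U T'
    commutes' := fun κ => appLE_fst_const c t U T' κ }

theorem fstAlgHom_apply (U : C.Opens) (T' : T.Opens) (a : Γ(C, U)) :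
    letI : Algebra k Γ(C, U) := (constHomOpen c U).hom.toAlgebra
    letI := boxKAlgebra c t U T'
    fstAlgHom c t U T' a = fstφ c t U T' a := rfl

/-- `fstφ : Γ(C, U) → Γ(C ×_k T, U × T')` is a base change along `k → Γ(T, T')` -/
theorem isBaseChange_fstAlgHom {U : C.Opens} {T' : T.Opens} (hU : IsAffineOpen U)
    (hT' : IsAffineOpen T') :
    letI : Algebra k Γ(C, U) := (constHomOpen c U).hom.toAlgebra
    letI : Algebra k Γ(T, T') := (constHomOpen t T').hom.toAlgebra
    letI := boxKAlgebra c t U T'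
    haveI : IsScalarTower k Γ(T, T') Γ(pullback c t, box c t U T') :=
      IsScalarTower.of_algebraMap_eq (fun _ => rfl)
    IsBaseChange Γ(T, T') (fstAlgHom c t U T').toLinearMap := by
  let _ : Algebra k Γ(C, U) := (constHomOpen c U).hom.toAlgebra
  let _ : Algebra k Γ(T, T') := (constHomOpen t T').hom.toAlgebra
  let _ := boxKAlgebra c t U T'
  have _ : IsScalarTower k Γ(T, T') Γ(pullback c t, box c t U T') :=
    IsScalarTower.of_algebraMap_eq (fun _ => rfl)
  refine IsBaseChange.of_equiv (tauEquiv c t hU hT' rfl rfl).toLinearEquiv (fun a => ?_)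
  show tauEquiv c t hU hT' rfl rfl (1 ⊗ₜ[k] a) = fstφ c t U T' a
  rw [tauEquiv_tmul, map_one, one_mul]

/-- **the complex of `O` over `Γ(T, T')` is the base change of the complex of `O` over `k`** -/
theorem isBC_box {e : C} (P : Curve.PointChart c e) {T' : T.Opens} (hT' : IsAffineOpen T') :
    letI : Algebra k Γ(C, P.U₁) := (constHomOpen c P.U₁).hom.toAlgebra
    letI : Algebra k Γ(C, P.U₂) := (constHomOpen c P.U₂).hom.toAlgebra
    letI : Algebra k Γ(C, C.basicOpen P.z) := (constHomOpen c (C.basicOpen P.z)).hom.toAlgebra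
    letI : Algebra k Γ(T, T') := (constHomOpen t T').hom.toAlgebra
    letI := boxKAlgebra c t P.U₁ T'
    letI := boxKAlgebra c t (C.basicOpen P.z) T'
    haveI : IsScalarTower k Γ(T, T') Γ(pullback c t, box c t P.U₁ T') :=
      IsScalarTower.of_algebraMap_eq (fun _ => rfl)
    haveI : IsScalarTower k Γ(T, T') Γ(pullback c t, box c t (C.basicOpen P.z) T') :=
      IsScalarTower.of_algebraMap_eq (fun _ => rfl)
    Krich.IsBC (resAlgHom c (ZAdapt.pointChart_le₁ P)).toLinearMap
      (Krich.LO (resAlgHom c (C.basicOpen_le P.z)).range (zUnit₀ P)) (Krich.bO (zUnit₀ P))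
      (boxRes (c := c) (t := t) (ZAdapt.pointChart_le₁ P) T').toLinearMap
      (Krich.LO (kB' (c := c) (t := t) P.z T') (zUnit P.z T'))
      (Krich.bO (zUnit (c := c) (t := t) P.z T'))
      (fstAlgHom c t P.U₁ T').toLinearMap (fstAlgHom c t (C.basicOpen P.z) T').toLinearMap := by
  let _ : Algebra k Γ(C, P.U₁) := (constHomOpen c P.U₁).hom.toAlgebra
  let _ : Algebra k Γ(C, P.U₂) := (constHomOpen c P.U₂).hom.toAlgebra
  let _ : Algebra k Γ(C, C.basicOpen P.z) := (constHomOpen c (C.basicOpen P.z)).hom.toAlgebra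
  let _ : Algebra k Γ(T, T') := (constHomOpen t T').hom.toAlgebra
  let _ := boxKAlgebra c t P.U₁ T'
  let _ := boxKAlgebra c t (C.basicOpen P.z) T'
  have _ : IsScalarTower k Γ(T, T') Γ(pullback c t, box c t P.U₁ T') :=
    IsScalarTower.of_algebraMap_eq (fun _ => rfl)
  have _ : IsScalarTower k Γ(T, T') Γ(pullback c t, box c t (C.basicOpen P.z) T') :=
    IsScalarTower.of_algebraMap_eq (fun _ => rfl)
  refine Krich.isBC_O _ _ _ _ _ _ _ (fstAlgHom c t (C.basicOpen P.z) T')
    (isBaseChange_fstAlgHom c t P.isAffineOpen₁ hT')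
    (isBaseChange_fstAlgHom c t (P.isAffineOpen₂.basicOpen P.z) hT') ?_ ?_ ?_
  · intro a
    exact (resO_fstφ (c := c) (t := t) (ZAdapt.pointChart_le₁ P) T' a).symm
  · apply Units.ext
    rw [Units.coe_map, zUnit_val]
    rfl
  · apply le_antisymm
    · rintro _ ⟨y, rfl⟩
      refine box_induction c t P.isAffineOpen₂ hT'
        (P := fun y => (boxRes (c := c) (t := t) (C.basicOpen_le P.z) T') y ∈
          Submodule.span Γ(T, T') ((fstAlgHom c t (C.basicOpen P.z) T') ''
            ((resAlgHom c (C.basicOpen_le P.z)).range : Set Γ(C, C.basicOpen P.z))))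
        ?_ ?_ ?_ y
      · rw [map_zero]; exact zero_mem _
      · intro s r
        have h1 : boxRes (c := c) (t := t) (C.basicOpen_le P.z) T'
            (fstφ c t P.U₂ T' s * boxφ c t P.U₂ T' r) =
            r • (fstAlgHom c t (C.basicOpen P.z) T') (resAlgHom c (C.basicOpen_le P.z) s) := by
          rw [map_mul, boxRes_apply, boxRes_apply, resO_boxφ (C.basicOpen_le P.z) T' r,
            resO_fstφ (C.basicOpen_le P.z) T' s, Algebra.smul_def, mul_comm]
          rfl
        rw [h1]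
        exact Submodule.smul_mem _ _ (Submodule.subset_span ⟨_, ⟨s, rfl⟩, rfl⟩)
      · intro a b ha hb
        rw [map_add]
        exact add_mem ha hb
    · rw [Submodule.span_le]
      rintro _ ⟨_, ⟨b, rfl⟩, rfl⟩
      exact ⟨fstφ c t P.U₂ T' b, resO_fstφ (c := c) (t := t) (C.basicOpen_le P.z) T' b⟩

end RLevel

section Main

open Fermat.Agent.S25lib.AffBC Fermat.Agent.S18lib Fermat.Agent.S26lib.Weil Fermat.Agent.S26lib.Aff
  Fermat.Agent.S26lib.CechRR Fermat.Agent.S26lib.CurvePlace Fermat.Agent.S25lib.Curve AlgebraicCurve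

variable {k : Type u} [Field k] [IsAlgClosed k] {C T : Scheme.{u}}
  (c : C ⟶ Spec (CommRingCat.of k)) [IsProper c] [SmoothOfRelativeDimension 1 c] [IsIntegral C]
  (t : T ⟶ Spec (CommRingCat.of k)) (ε : Prod.KPt c) (P : Curve.PointChart c ε.pt)

/-- **(OD2), basis form**: `H¹(O(-e))` over `Γ(T, T')` has a basis of `γ` elements -/
theorem h1O_basis {γ : ℕ} (hF : letI := kAlgebraFF c; IsCurveOfGenus k C.functionField γ)
    {T' : T.Opens} (hT' : IsAffineOpen T') :
    Nonempty (Module.Basis (Fin γ) Γ(T, T')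
      (Krich.H1 (boxRes (c := c) (t := t) (ZAdapt.pointChart_le₁ P) T').toLinearMap
        (Krich.LO (kB' (c := c) (t := t) P.z T') (zUnit P.z T')) (-1))) := by
  let _ : Algebra k Γ(C, P.U₁) := (constHomOpen c P.U₁).hom.toAlgebra
  let _ : Algebra k Γ(C, P.U₂) := (constHomOpen c P.U₂).hom.toAlgebra
  let _ : Algebra k Γ(C, C.basicOpen P.z) := (constHomOpen c (C.basicOpen P.z)).hom.toAlgebra
  let _ : Algebra k Γ(T, T') := (constHomOpen t T').hom.toAlgebra
  let _ := boxKAlgebra c t P.U₁ T'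
  let _ := boxKAlgebra c t (C.basicOpen P.z) T'
  have _ : IsScalarTower k Γ(T, T') Γ(pullback c t, box c t P.U₁ T') :=
    IsScalarTower.of_algebraMap_eq (fun _ => rfl)
  have _ : IsScalarTower k Γ(T, T') Γ(pullback c t, box c t (C.basicOpen P.z) T') :=
    IsScalarTower.of_algebraMap_eq (fun _ => rfl)
  have hbc := isBC_box c t P hT'
  obtain ⟨hfin, hrank⟩ := finrank_h1O_k c ε P hF
  have b₀ := Module.finBasisOfFinrankEq k _ hrank
  exact ⟨(b₀.baseChange Γ(T, T')).map (hbc.isBaseChange_H1 (-1)).equiv⟩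

theorem h1O_free {γ : ℕ} (hF : letI := kAlgebraFF c; IsCurveOfGenus k C.functionField γ)
    {T' : T.Opens} (hT' : IsAffineOpen T') :
    Module.Free Γ(T, T')
      (Krich.H1 (boxRes (c := c) (t := t) (ZAdapt.pointChart_le₁ P) T').toLinearMap
        (Krich.LO (kB' (c := c) (t := t) P.z T') (zUnit P.z T')) (-1)) := by
  obtain ⟨b⟩ := h1O_basis c t ε P hF hT'
  exact Module.Free.of_basis b

theorem h1O_finite {γ : ℕ} (hF : letI := kAlgebraFF c; IsCurveOfGenus k C.functionField γ)
    {T' : T.Opens} (hT' : IsAffineOpen T') :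
    Module.Finite Γ(T, T')
      (Krich.H1 (boxRes (c := c) (t := t) (ZAdapt.pointChart_le₁ P) T').toLinearMap
        (Krich.LO (kB' (c := c) (t := t) P.z T') (zUnit P.z T')) (-1)) := by
  obtain ⟨b⟩ := h1O_basis c t ε P hF hT'
  exact Module.Finite.of_basis b

theorem h1O_finrank {γ : ℕ} (hF : letI := kAlgebraFF c; IsCurveOfGenus k C.functionField γ)
    {T' : T.Opens} (hT' : IsAffineOpen T') [Nontrivial Γ(T, T')] :
    Module.finrank Γ(T, T')
      (Krich.H1 (boxRes (c := c) (t := t) (ZAdapt.pointChart_le₁ P) T').toLinearMap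
        (Krich.LO (kB' (c := c) (t := t) P.z T') (zUnit P.z T')) (-1)) = γ := by
  obtain ⟨b⟩ := h1O_basis c t ε P hF hT'
  rw [Module.finrank_eq_card_basis b, Fintype.card_fin]

/-- **(OD2)** `H¹(O(-e))` over the base is free and finite of rank `γ` -/
theorem h1O_free_finrank {γ : ℕ}
    (hF : letI := kAlgebraFF c; IsCurveOfGenus k C.functionField γ)
    {T' : T.Opens} (hT' : IsAffineOpen T') [Nontrivial Γ(T, T')] :
    Module.Free Γ(T, T')
      (Krich.H1 (boxRes (c := c) (t := t) (ZAdapt.pointChart_le₁ P) T').toLinearMap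
        (Krich.LO (kB' (c := c) (t := t) P.z T') (zUnit P.z T')) (-1)) ∧
    Module.Finite Γ(T, T')
      (Krich.H1 (boxRes (c := c) (t := t) (ZAdapt.pointChart_le₁ P) T').toLinearMap
        (Krich.LO (kB' (c := c) (t := t) P.z T') (zUnit P.z T')) (-1)) ∧
    Module.finrank Γ(T, T')
      (Krich.H1 (boxRes (c := c) (t := t) (ZAdapt.pointChart_le₁ P) T').toLinearMap
        (Krich.LO (kB' (c := c) (t := t) P.z T') (zUnit P.z T')) (-1)) = γ :=
  ⟨h1O_free c t ε P hF hT', h1O_finite c t ε P hF hT', h1O_finrank c t ε P hF hT'⟩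

end Main

end Fermat.Agent.S25lib.Ideal
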