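/-
S25lib / Ideal / Nakayama  (helper1)  --  Project L (S25), block `Ideal` (Cartier algebra)

**Cayley–Hamilton form of Nakayama's lemma.**
* `exists_smul_eq_zero_of_smul_mem` : `M` a finite `S`-module, `𝔍` an ideal, `τ ∈ S` with
  `τ M ⊆ 𝔍 M`.  Then there are `n` and `Δ ≡ τ ^ n (mod 𝔍)` with `Δ M = 0`.
* `exists_mul_mem_span_singleton` : `I` a finitely generated ideal of `S`, `f ∈ I`, `𝔍` an
  ideal, `τ ∈ S` with `τ I ⊆ f S + 𝔍 I`.  Then there are `n` and `Δ ≡ τ ^ n (mod 𝔍)` with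
  `Δ I ⊆ f S`.
-/
import Mathlib

set_option autoImplicit false
set_option linter.unusedSectionVars false

noncomputable section

namespace Fermat.Agent.S25lib.Ideal

open Polynomial

variable {S : Type*} [CommRing S]

theorem exists_smul_eq_zero_of_smul_mem {M : Type*} [AddCommGroup M] [Module S M]
    [Module.Finite S M] (J : Ideal S) (τ : S)
    (h : ∀ m : M, τ • m ∈ J • (⊤ : Submodule S M)) :
    ∃ (Δ : S) (n : ℕ), Δ - τ ^ n ∈ J ∧ ∀ m : M, Δ • m = 0 := by
  classical
  have hrange : LinearMap.range (algebraMap S (Module.End S M) τ) ≤ J • (⊤ : Submodule S M) := by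
    rintro _ ⟨m, rfl⟩
    exact h m
  obtain ⟨p, hmonic, -, hcoeff, hp⟩ :=
    LinearMap.exists_monic_and_natDegree_eq_and_coeff_mem_pow_and_aeval_eq_zero S
      (algebraMap S (Module.End S M) τ) J hrange
  refine ⟨p.eval τ, p.natDegree, ?_, ?_⟩
  · -- `p(τ) - τ^n` is a combination of the lower coefficients
    rw [Polynomial.eval_eq_sum_range, Finset.sum_range_succ, hmonic.coeff_natDegree, one_mul,
      add_sub_cancel_right]
    refine Ideal.sum_mem _ fun i hi => ?_
    have hi' : i < p.natDegree := Finset.mem_range.mp hi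
    have h1 := hcoeff i
    have h2 : J ^ (p.natDegree - i) ≤ J := by
      have : p.natDegree - i ≠ 0 := by omega
      exact Ideal.pow_le_self this
    exact Ideal.mul_mem_right _ _ (h2 h1)
  · intro m
    rw [Polynomial.aeval_algebraMap_apply_eq_algebraMap_eval] at hp
    have := LinearMap.congr_fun hp m
    simpa using this

theorem exists_mul_mem_span_singleton (I : Ideal S) (hfg : I.FG) {f : S} (hf : f ∈ I)
    (J : Ideal S) (τ : S) (h : ∀ x ∈ I, τ * x ∈ Ideal.span {f} ⊔ J * I) :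
    ∃ (Δ : S) (n : ℕ), Δ - τ ^ n ∈ J ∧ ∀ x ∈ I, Δ * x ∈ Ideal.span {f} := by
  classical
  have hfin : Module.Finite S I := Module.Finite.iff_fg.mpr hfg
  have key : ∀ m : (↥I) ⧸ Submodule.span S {(⟨f, hf⟩ : I)},
      τ • m ∈ J • (⊤ : Submodule S ((↥I) ⧸ Submodule.span S {(⟨f, hf⟩ : I)})) := by
    intro m
    obtain ⟨x, rfl⟩ := Submodule.Quotient.mk_surjective _ m
    have hx := h x.1 x.2
    obtain ⟨u, hu, w, hw, huw⟩ := Submodule.mem_sup.mp hx
    obtain ⟨y, rfl⟩ := Ideal.mem_span_singleton'.mp hu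
    have hwI : w ∈ I := Ideal.mul_le_right hw
    -- `τ x = y f + w` in `I`
    have h1 : τ • x = y • (⟨f, hf⟩ : I) + ⟨w, hwI⟩ := by
      apply Subtype.ext
      show τ * x.1 = y * f + w
      rw [huw]
    rw [← Submodule.Quotient.mk_smul, h1, Submodule.Quotient.mk_add,
      Submodule.Quotient.mk_smul]
    have h0 : (Submodule.Quotient.mk (⟨f, hf⟩ : I) :
        (↥I) ⧸ Submodule.span S {(⟨f, hf⟩ : I)}) = 0 :=
      (Submodule.Quotient.mk_eq_zero _).mpr (Submodule.mem_span_singleton_self _)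
    rw [h0, smul_zero, zero_add]
    -- `w ∈ J I`
    have h3 : (⟨w, hwI⟩ : I) ∈ J • (⊤ : Submodule S I) := by
      rw [Submodule.mem_smul_top_iff]
      show w ∈ J • I
      rwa [Ideal.smul_eq_mul]
    have h4 : (Submodule.span S {(⟨f, hf⟩ : I)}).mkQ (⟨w, hwI⟩ : I) ∈
        Submodule.map (Submodule.span S {(⟨f, hf⟩ : I)}).mkQ (J • (⊤ : Submodule S I)) :=
      Submodule.mem_map_of_mem h3
    rw [Submodule.map_smul''] at h4
    exact Submodule.smul_mono le_rfl le_top h4
  obtain ⟨Δ, n, hΔ, hkill⟩ := exists_smul_eq_zero_of_smul_mem J τ key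
  refine ⟨Δ, n, hΔ, fun x hx => ?_⟩
  have h2 := hkill (Submodule.Quotient.mk (⟨x, hx⟩ : I))
  rw [← Submodule.Quotient.mk_smul, Submodule.Quotient.mk_eq_zero,
    Submodule.mem_span_singleton] at h2
  obtain ⟨y, hy⟩ := h2
  rw [Ideal.mem_span_singleton']
  refine ⟨y, ?_⟩
  have := congrArg Subtype.val hy
  simpa using this

end Fermat.Agent.S25lib.Ideal
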