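/-
S25lib / Ideal / Regular  (helper1)  --  Project L (S25), block `Ideal` (Cartier algebra), (i)

**Fibrewise non-zero-divisors** (no Noetherian hypothesis).  `k` a field, `A` a `k`-algebra.
* `eq_zero_of_mul_eq_zero_of_isLocalRing` : `R` a local `k`-algebra with residue field `κ`, `A_κ` a
  domain, `f ∈ A_R` with non-zero image in `A_κ`.  Then `f` is a non-zero-divisor of `A_R`
  (`A_R` is a free `R`-module, multiplication by `f` is injective modulo the maximal ideal).
* `exists_smul_eq_zero_of_mul_eq_zero` : `R` any `k`-algebra, `𝔮` a prime of `R`, `A_{κ(𝔮)}` a domain,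
  `f ∈ A_R` with non-zero image in `A_{κ(𝔮)}` and `c f = 0`.  Then `t • c = 0` for some `t ∉ 𝔮`.
-/
import Mathlib
import Fermat.Agent.S25lib.Ideal.Fibre
import Fermat.Agent.S25lib.Hilb.Push

set_option autoImplicit false
set_option linter.unusedSectionVars false

noncomputable section

namespace Fermat.Agent.S25lib.Ideal

open TensorProduct

variable {k : Type*} [Field k] {A : Type*} [CommRing A] [Algebra k A]

section Local

variable {R : Type*} [CommRing R] [Algebra k R] [IsLocalRing R]

theorem eq_zero_of_mul_eq_zero_of_isLocalRing [IsDomain (IsLocalRing.ResidueField R ⊗[k] A)]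
    {f : R ⊗[k] A}
    (hf : bc A (IsScalarTower.toAlgHom k R (IsLocalRing.ResidueField R)) f ≠ 0)
    {c : R ⊗[k] A} (hc : c * f = 0) : c = 0 := by
  classical
  set κ := IsLocalRing.ResidueField R with hκ
  set π : R →ₐ[k] κ := IsScalarTower.toAlgHom k R κ with hπ
  let b := Module.Free.chooseBasis k A
  let bR := Algebra.TensorProduct.basis R b
  let bκ := Algebra.TensorProduct.basis κ b
  -- the family `(1 ⊗ b i) f` is linearly independent over `R`
  have hli : LinearIndependent R (fun i => bR i * f) := by
    apply Module.IsLocalRing.linearIndependent_of_flat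
    -- transport to `κ ⊗[k] A`
    let e : κ ⊗[R] (R ⊗[k] A) ≃ₗ[κ] κ ⊗[k] A :=
      (Algebra.TensorProduct.cancelBaseChange k R κ κ A).toLinearEquiv
    have he : ∀ x : R ⊗[k] A, e ((1 : κ) ⊗ₜ[R] x) = bc A π x := by
      intro x
      exact Hilb.cancelBaseChange_one_tmul k A x
    rw [← LinearMap.linearIndependent_iff e.toLinearMap e.ker]
    have h1 : (e.toLinearMap ∘ (TensorProduct.mk R κ (R ⊗[k] A) 1 ∘ fun i => bR i * f)) =
        (LinearMap.mulRight κ (bc A π f)) ∘ bκ := by
      funext i
      show e ((1 : κ) ⊗ₜ[R] (bR i * f)) = bκ i * bc A π f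
      rw [he, map_mul]
      congr 1
      rw [Algebra.TensorProduct.basis_apply, Algebra.TensorProduct.basis_apply, bc_tmul, map_one]
    rw [h1]
    apply bκ.linearIndependent.map'
    rw [LinearMap.ker_eq_bot]
    intro x y hxy
    exact mul_right_cancel₀ hf hxy
  -- expand `c` in the basis
  have h2 : Finsupp.linearCombination R (fun i => bR i * f) (bR.repr c) = 0 := by
    rw [Finsupp.linearCombination_apply, Finsupp.sum]
    have : ∑ i ∈ (bR.repr c).support, (bR.repr c) i • (bR i * f) =
        (∑ i ∈ (bR.repr c).support, (bR.repr c) i • bR i) * f := by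
      rw [Finset.sum_mul]
      refine Finset.sum_congr rfl fun i _ => ?_
      rw [smul_mul_assoc]
    rw [this]
    have h3 : ∑ i ∈ (bR.repr c).support, (bR.repr c) i • bR i = c := by
      have := bR.linearCombination_repr c
      rwa [Finsupp.linearCombination_apply, Finsupp.sum] at this
    rw [h3, hc]
  have h4 := linearIndependent_iff.mp hli _ h2
  have h5 : bR.repr c = bR.repr 0 := by rw [h4, map_zero]
  exact bR.repr.injective h5

end Local

section Global

variable {R : Type*} [CommRing R] [Algebra k R] (q : Ideal R) [q.IsPrime]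

/-- the point `R → κ(𝔮)` -/
abbrev toRes : R →ₐ[k] q.ResidueField := IsScalarTower.toAlgHom k R q.ResidueField

theorem toRes_eq_zero_iff (t : R) : toRes (k := k) q t = 0 ↔ t ∈ q :=
  Ideal.algebraMap_residueField_eq_zero

theorem exists_smul_eq_zero_of_mul_eq_zero [IsDomain (q.ResidueField ⊗[k] A)]
    {f : R ⊗[k] A} (hf : bc A (toRes q) f ≠ 0) {c : R ⊗[k] A} (hc : c * f = 0) :
    ∃ t : R, t ∉ q ∧ t • c = 0 := by
  -- localise at `𝔮`
  let L : R →ₐ[k] Localization.AtPrime q := IsScalarTower.toAlgHom k R (Localization.AtPrime q)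
  have hcomp : (IsScalarTower.toAlgHom k (Localization.AtPrime q) q.ResidueField).comp L =
      toRes q := by
    ext x
    exact (IsScalarTower.algebraMap_apply R (Localization.AtPrime q) q.ResidueField x).symm
  have hbc : ∀ x : R ⊗[k] A,
      bc A (IsScalarTower.toAlgHom k (Localization.AtPrime q) q.ResidueField) (bc A L x) =
        bc A (toRes q) x := by
    intro x
    rw [← hcomp]
    induction x using TensorProduct.induction_on with
    | zero => simp
    | tmul r a => simp [bc_tmul]
    | add x y hx hy => simp only [map_add, hx, hy]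
  have hf' : bc A (IsScalarTower.toAlgHom k (Localization.AtPrime q)
      (IsLocalRing.ResidueField (Localization.AtPrime q))) (bc A L f) ≠ 0 := by
    rw [hbc]; exact hf
  have hc' : bc A L c * bc A L f = 0 := by rw [← map_mul, hc, map_zero]
  have h0 : bc A L c = 0 := eq_zero_of_mul_eq_zero_of_isLocalRing hf' hc'
  -- `bc L` is the localisation map of modules
  let g : R ⊗[k] A →ₗ[R] Localization.AtPrime q ⊗[k] A :=
    TensorProduct.AlgebraTensorModule.rTensor k A
      (Algebra.linearMap R (Localization.AtPrime q))
  have hg : ∀ x : R ⊗[k] A, g x = bc A L x := by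
    intro x
    induction x using TensorProduct.induction_on with
    | zero => simp
    | tmul r a =>
      rw [bc_tmul]
      rfl
    | add x y hx hy => simp only [map_add, hx, hy]
  have hloc : IsLocalizedModule q.primeCompl g :=
    IsLocalizedModule.rTensor R q.primeCompl (Algebra.linearMap R (Localization.AtPrime q))
  have h1 : g c = 0 := by rw [hg, h0]
  obtain ⟨s, hs⟩ := (IsLocalizedModule.eq_zero_iff q.primeCompl g).mp h1
  exact ⟨s.1, s.2, hs⟩

end Global

end Fermat.Agent.S25lib.Ideal
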