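/-
S25lib / Ideal / SecInv  (helper1)  --  Project L (S25), request (R1) of the dictionary:
**the sections of an invertible module over an affine open form an invertible module.**

`X` a scheme, `M` an invertible `X`-module, `B ⊆ X` an affine open.  Then `Γ(M, B)` is an invertible
`Γ(X, B)`-module (`Module.Invertible`): it is finitely presented (helper4's `AffBC/Proj`) and locally free
of rank one on the basic opens `D(g)`, `g ∈ genSet M B` (`exists_locGen_of_isGen`), so the criterion
`Ideal.invertible_of_forall_maximal` applies.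

* `exists_locGen_of_isGen` : a generator of `M` over `D(g)` gives `m₀ ∈ Γ(M, B)` generating `Γ(M, B)[1/g]`
  freely (elementwise form);
* `dual_apply_smul_comm_sections` : `ψ x • y = ψ y • x` in `Γ(M, B)`;
* **`invertible_sections`**.
-/
import Mathlib
import Fermat.Agent.S25lib.AffBC.Proj
import Fermat.Agent.S25lib.Ideal.InvCrit

set_option autoImplicit false

noncomputable section

universe u

open AlgebraicGeometry CategoryTheory TopologicalSpace

namespace Fermat.Agent.S25lib.Ideal

open Fermat.Agent.S25lib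

variable {X : Scheme.{u}} (M : X.Modules)

/-- a generator of `M` over the basic open `D(g)` of an affine open `B` comes, up to a power of `g`, from
a section `m₀` over `B` which generates `Γ(M, B)` freely after inverting `g` -/
theorem exists_locGen_of_isGen (hM : Scheme.Modules.IsInvertible M) {B : X.Opens}
    (hB : IsAffineOpen B) (g : Γ(X, B)) {σ : Γ(M, X.basicOpen g)}
    (hσ : Mod.IsGen M (X.basicOpen g) σ) :
    ∃ m₀ : Γ(M, B), (∀ x : Γ(M, B), ∃ (k : ℕ) (c : Γ(X, B)), g ^ k • x = c • m₀) ∧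
      ∀ c : Γ(X, B), c • m₀ = 0 → ∃ k : ℕ, g ^ k * c = 0 := by
  obtain ⟨h1, h2⟩ := AffBC.exists_res_eq_pow_smul_and M hM hB g
  have hloc := hB.isLocalization_basicOpen g
  have halg : ∀ a : Γ(X, B), algebraMap Γ(X, B) Γ(X, X.basicOpen g) a =
      Mod.resO (X.basicOpen_le g) a := fun a => rfl
  obtain ⟨n₀, m₀, hm₀⟩ := h1 σ
  have hinj : ∀ r r' : Γ(X, X.basicOpen g), r • σ = r' • σ → r = r' := by
    intro r r' h
    have := (hσ (X.basicOpen g) le_rfl).1
    simp only [Mod.res_self] at this
    exact this h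
  -- vanishing on `D(g)` of a function on `B`
  have hzero : ∀ a : Γ(X, B), Mod.resO (X.basicOpen_le g) a = 0 → ∃ N : ℕ, g ^ N * a = 0 := by
    intro a ha
    rw [← halg] at ha
    obtain ⟨⟨_, N, rfl⟩, hN⟩ :=
      (IsLocalization.map_eq_zero_iff (Submonoid.powers g) Γ(X, X.basicOpen g) a).mp ha
    exact ⟨N, hN⟩
  refine ⟨m₀, fun x => ?_, fun c hc => ?_⟩
  · -- the coordinate of `x|_{D(g)}`
    set c' := hσ.coord le_rfl (Mod.res M (X.basicOpen_le g) x) with hc'
    have hc's : c' • σ = Mod.res M (X.basicOpen_le g) x := by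
      have := hσ.coord_smul le_rfl (Mod.res M (X.basicOpen_le g) x)
      rwa [Mod.res_self] at this
    obtain ⟨k, c, hkc⟩ := IsLocalization.Away.surj g c'
    rw [halg, halg] at hkc
    -- `g ^ (k + n₀) • x` and `c • m₀` agree on `D(g)`
    have hres : Mod.res M (X.basicOpen_le g) (g ^ (k + n₀) • x - c • m₀) = 0 := by
      rw [show Mod.res M (X.basicOpen_le g) (g ^ (k + n₀) • x - c • m₀) =
        Mod.res M (X.basicOpen_le g) (g ^ (k + n₀) • x) - Mod.res M (X.basicOpen_le g) (c • m₀)
        from map_sub _ _ _, Mod.res_smul, Mod.res_smul, hm₀, ← hc's, ← hkc, smul_smul, smul_smul,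
        show Mod.resO (X.basicOpen_le g) (g ^ (k + n₀)) =
          Mod.resO (X.basicOpen_le g) g ^ (k + n₀) from map_pow _ _ _, sub_eq_zero]
      congr 1
      ring
    obtain ⟨N, hN⟩ := h2 _ hres
    refine ⟨N + (k + n₀), g ^ N * c, ?_⟩
    rw [smul_sub, sub_eq_zero, smul_smul, smul_smul, ← pow_add] at hN
    exact hN
  · have h3 := congrArg (Mod.res M (X.basicOpen_le g)) hc
    rw [Mod.res_smul, hm₀, Mod.res_zero, smul_smul] at h3
    have h4 : Mod.resO (X.basicOpen_le g) c * Mod.resO (X.basicOpen_le g) g ^ n₀ = 0 := by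
      apply hinj
      rw [h3, zero_smul]
    have h5 : Mod.resO (X.basicOpen_le g) (c * g ^ n₀) = 0 := by
      rw [Mod.resO_mul, show Mod.resO (X.basicOpen_le g) (g ^ n₀) =
        Mod.resO (X.basicOpen_le g) g ^ n₀ from map_pow _ _ _]
      exact h4
    obtain ⟨N, hN⟩ := hzero _ h5
    refine ⟨N + n₀, ?_⟩
    rw [pow_add, mul_assoc, mul_comm (g ^ n₀) c]
    exact hN

/-- linear forms on the sections of an invertible module over an affine open are "multiplications" -/
theorem dual_apply_smul_comm_sections (hM : Scheme.Modules.IsInvertible M) {B : X.Opens}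
    (hB : IsAffineOpen B) (ψ : Module.Dual Γ(X, B) Γ(M, B)) (x y : Γ(M, B)) :
    ψ x • y = ψ y • x := by
  rw [← sub_eq_zero]
  have key := Submodule.mem_of_span_eq_top_of_smul_pow_mem (⊥ : Submodule Γ(X, B) Γ(M, B))
    (AffBC.genSet M B) (AffBC.span_genSet M hM hB) (ψ x • y - ψ y • x) (fun g => by
      obtain ⟨σ, hσ⟩ := g.2
      obtain ⟨m₀, hgen, -⟩ := exists_locGen_of_isGen M hM hB g.1 hσ
      obtain ⟨k, c, hk⟩ := hgen x
      obtain ⟨l, d, hl⟩ := hgen y
      refine ⟨k + l, ?_⟩
      rw [Submodule.mem_bot]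
      have e1 : (g.1 : Γ(X, B)) ^ (k + l) • (ψ x • y) = ψ (g.1 ^ k • x) • (g.1 ^ l • y) := by
        rw [map_smul, smul_eq_mul, pow_add, smul_smul, smul_smul]
        congr 1
        ring
      have e2 : (g.1 : Γ(X, B)) ^ (k + l) • (ψ y • x) = ψ (g.1 ^ l • y) • (g.1 ^ k • x) := by
        rw [map_smul, smul_eq_mul, pow_add, smul_smul, smul_smul]
        congr 1
        ring
      rw [smul_sub, e1, e2, hk, hl, map_smul, map_smul, smul_eq_mul, smul_eq_mul, smul_smul,
        smul_smul, sub_eq_zero]
      congr 1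
      ring)
  exact (Submodule.mem_bot _).mp key

/-- **the sections of an invertible module over an affine open form an invertible module** -/
theorem invertible_sections (hM : Scheme.Modules.IsInvertible M) {B : X.Opens}
    (hB : IsAffineOpen B) : Module.Invertible Γ(X, B) Γ(M, B) := by
  have := AffBC.finitePresentation_sections M hM hB
  refine invertible_of_forall_maximal (dual_apply_smul_comm_sections M hM hB) fun P hP => ?_
  -- a function of `genSet` outside `P`
  have hex : ∃ g ∈ AffBC.genSet M B, g ∉ P := by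
    by_contra hcon
    push Not at hcon
    have hle : Ideal.span (AffBC.genSet M B) ≤ P := Ideal.span_le.mpr hcon
    rw [AffBC.span_genSet M hM hB] at hle
    exact hP.ne_top (top_le_iff.mp hle)
  obtain ⟨g, ⟨σ, hσ⟩, hgP⟩ := hex
  obtain ⟨m₀, hgen, hfree⟩ := exists_locGen_of_isGen M hM hB g hσ
  have hpow : ∀ k : ℕ, g ^ k ∉ P := fun k hk => hgP (hP.isPrime.mem_of_pow_mem k hk)
  refine ⟨m₀, fun x => ?_, fun c hc => ?_⟩
  · obtain ⟨k, c, hk⟩ := hgen x
    exact ⟨g ^ k, hpow k, c, hk⟩
  · obtain ⟨k, hk⟩ := hfree c hc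
    exact ⟨g ^ k, hpow k, hk⟩

end Fermat.Agent.S25lib.Ideal
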